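import Fermat.Agent.QuarticCount.Estimate
import Fermat.Agent.QuarticFieldsCount.Main

/-!
# Quartic fields of bounded discriminant

Every field lies in one dyadic range and the ranges sum geometrically, so there are `O (X)` quartic
fields without quadratic subfield; with those that have one, `O (X)` quartic fields in all.
-/

set_option autoImplicit false
set_option linter.style.haveILetI false

noncomputable section

open NumberField Module Finset
open scoped Classical

namespace FA.QuarticCount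

theorem sum_range_pow_le {r : ℝ} (h0 : 0 ≤ r) (h1 : r < 1) (n : ℕ) :
    ∑ i ∈ range n, r ^ i ≤ 1 / (1 - r) := by
  have h := geom_sum_mul_neg r n
  rw [le_div_iff₀ (by linarith), h]
  linarith [pow_nonneg h0 n]

/-- **The covolume of the pairs**: every minor is a multiple of `√d`, and some minor is not zero. -/
theorem forms_covolume {L : Type} [Field L] [NumberField L]
    (hk : ∀ k : IntermediateField ℚ L, finrank ℚ k ≠ 2) (e : Fin 4 ≃ (L →ₐ[ℚ] ℂ)) :
    (∀ x y : 𝓞 L, det2 (psi (emb e (x : L))) (psi (emb e (y : L))) =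
      -(Matrix.of ![1, emb e (x : L), emb e (y : L), emb e (x : L) * emb e (y : L)]).det) ∧
    (∀ x y : 𝓞 L, ∃ n : ℤ,
      det2 (psi (emb e (x : L))) (psi (emb e (y : L))) ^ 2 = (n : ℂ) ^ 2 * (discr L : ℂ)) ∧
    ∃ x y : 𝓞 L, det2 (psi (emb e (x : L))) (psi (emb e (y : L))) ≠ 0 := by
  obtain ⟨δ, hδ2, -, hδ⟩ := exists_delta e
  refine ⟨fun x y => det2_psi _ _, fun x y => ?_, ?_⟩
  · obtain ⟨n, hn⟩ := exists_det_psi hδ x y
    exact ⟨n, by rw [hn, mul_pow, hδ2]⟩
  · obtain ⟨x, y, h, -⟩ := exists_minor_ne_zero hk e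
    exact ⟨x, y, h⟩

/-- **Quartic fields without a quadratic subfield**: `O (X)` of them. -/
theorem quartic_primitive_count : ∃ C : ℝ, 0 ≤ C ∧
    ∀ (X : ℝ), 0 ≤ X → ∀ (ι : Type) (L : ι → Type) [∀ i, Field (L i)] [∀ i, NumberField (L i)],
      (∀ i, finrank ℚ (L i) = 4) →
      (∀ i, ∀ k : IntermediateField ℚ (L i), finrank ℚ k ≠ 2) →
      (∀ i, |(discr (L i) : ℝ)| ≤ X) → (∀ i j, Nonempty (L i ≃+* L j) → i = j) →
      Finite ι ∧ (Nat.card ι : ℝ) ≤ C * X := by
  obtain ⟨C, hC, hframe⟩ := exists_frame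
  obtain ⟨K, hK, hrange⟩ := exists_range_bound hC
  refine ⟨K * 4000, by linarith, fun X hX ι L _ _ h4 hk hdisc hne => ?_⟩
  let F := fun i => (hframe (L i) (h4 i) (hk i)).some
  have ex : ∀ i, ∃ (k : ℕ) (a : Fin 3 → ℕ) (e : ℕ), (F i).InRange X k a e := by
    intro i
    have h0 := (F i).l_pos 0; have h1 := (F i).l_pos 1
    obtain ⟨k, hk⟩ := exists_nat_pow_near (x := X / |(discr (L i) : ℝ)|) (y := 2)
      ((one_le_div (zero_lt_one.trans_le one_le_abs_discr)).2 (hdisc i)) one_lt_two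
    obtain ⟨a, ha⟩ := exists_nat_pow_near (x := (F i).l 1 / (F i).l 0) (y := 2)
      ((one_le_div h0).2 ((F i).l_mono (by decide))) one_lt_two
    obtain ⟨b, hb⟩ := exists_nat_pow_near (x := (F i).l 2 / (F i).l 1) (y := 2)
      ((one_le_div h1).2 ((F i).l_mono (by decide))) one_lt_two
    obtain ⟨c, hc⟩ := exists_nat_pow_near (x := (F i).ν 1 / (F i).ν 0) (y := 2)
      ((one_le_div (F i).ν_pos).2 (F i).ν_mono) one_lt_two
    obtain ⟨e, he⟩ := exists_nat_pow_near (x := (F i).excess) (y := 2)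
      (F i).one_le_excess one_lt_two
    exact ⟨k, ![a, b, c], e, hk, ha, hb, hc, he⟩
  choose k a e hin using ex
  have key : ∀ S : Finset ι, (S.card : ℝ) ≤ K * 4000 * X := by
    intro S
    set f : ι → ℕ × ℕ × ℕ × ℕ × ℕ := fun i => (k i, e i, a i 0, a i 1, a i 2)
    set N := S.sup (fun i => k i + e i + a i 0 + a i 1 + a i 2) + 1
    set R := range N ×ˢ range N ×ˢ range N ×ˢ range N ×ˢ range N
    have hf : ∀ i ∈ S, f i ∈ R := fun i hi => by
      have := Finset.le_sup (f := fun i => k i + e i + a i 0 + a i 1 + a i 2) hi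
      simp only [R, f, N, mem_product, mem_range]
      omega
    set h : ℕ → ℝ := fun n => (1 / 2) ^ n
    set r : ℕ → ℝ := fun n => (9 / 10) ^ n
    calc (S.card : ℝ) = ∑ t ∈ R, (({i ∈ S | f i = t} : Finset ι).card : ℝ) := by
          exact_mod_cast congrArg (Nat.cast : ℕ → ℝ) (card_eq_sum_card_fiberwise hf)
      _ ≤ ∑ t ∈ R, K * X * (h t.1 * (h t.2.1 * (r t.2.2.1 * (r t.2.2.2.1 * r t.2.2.2.2)))) := by
          refine sum_le_sum fun t _ => ?_
          refine (hrange ι L F hne X hX t.1 ![t.2.2.1, t.2.2.2.1, t.2.2.2.2] t.2.1 _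
            fun i hi => ?_).trans (le_of_eq ?_)
          · obtain rfl := (mem_filter.1 hi).2
            have ea : ![a i 0, a i 1, a i 2] = a i := funext fun m => by fin_cases m <;> rfl
            simp only [f, ea]
            exact hin i
          · simp only [h, r, Matrix.cons_val]
            ring
      _ = K * X * ((∑ n ∈ range N, h n) * ((∑ n ∈ range N, h n) * ((∑ n ∈ range N, r n) *
            ((∑ n ∈ range N, r n) * ∑ n ∈ range N, r n)))) := by
          simp only [R, sum_product, ← mul_sum, ← sum_mul]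
      _ ≤ K * X * (2 * (2 * (10 * (10 * 10)))) := by
          have hh : ∑ n ∈ range N, h n ≤ 2 :=
            (sum_range_pow_le (by norm_num) (by norm_num) N).trans (le_of_eq (by norm_num))
          have hr : ∑ n ∈ range N, r n ≤ 10 :=
            (sum_range_pow_le (by norm_num) (by norm_num) N).trans (le_of_eq (by norm_num))
          gcongr
      _ = _ := by ring
  have hfin : Finite ι := by
    by_contra hinf
    rw [not_finite_iff_infinite] at hinf
    obtain ⟨S, hS⟩ := Infinite.exists_subset_card_eq ι (⌊K * 4000 * X⌋₊ + 1)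
    have := key S
    rw [hS] at this
    push_cast at this
    linarith [Nat.lt_floor_add_one (K * 4000 * X)]
  refine ⟨hfin, ?_⟩
  haveI := Fintype.ofFinite ι
  rw [Nat.card_eq_fintype_card, ← card_univ]
  exact key univ

/-- **Quartic fields**: `O (X)` fields with `|d| ≤ X`, the upper half of Bhargava's theorem. -/
theorem quartic_fields_count : ∃ C : ℝ, 0 ≤ C ∧
    ∀ (X : ℝ), 0 ≤ X → ∀ (ι : Type) (L : ι → Type) [∀ i, Field (L i)] [∀ i, NumberField (L i)],
      (∀ i, finrank ℚ (L i) = 4) → (∀ i, |(discr (L i) : ℝ)| ≤ X) →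
      (∀ i j, Nonempty (L i ≃+* L j) → i = j) →
      Finite ι ∧ (Nat.card ι : ℝ) ≤ C * X := by
  obtain ⟨C₁, hC₁, h1⟩ := quartic_primitive_count
  obtain ⟨C₂, hC₂, h2⟩ := FA.QuarticFieldsCount.exists_quartic_bound
  refine ⟨C₂ + C₁, by linarith, fun X hX ι L _ _ h4 hdisc hne => ?_⟩
  set P : ι → Prop := fun i => ∃ k : IntermediateField ℚ (L i), finrank ℚ k = 2
  obtain ⟨f2, c2⟩ := h2 X hX {i // P i} (fun i => L i.1) (fun i => h4 i.1) (fun i => i.2)
    (fun i => hdisc i.1) fun i j h => Subtype.ext (hne _ _ h)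
  obtain ⟨f1, c1⟩ := h1 X hX {i // ¬ P i} (fun i => L i.1) (fun i => h4 i.1)
    (fun i k hk => i.2 ⟨k, hk⟩) (fun i => hdisc i.1) fun i j h => Subtype.ext (hne _ _ h)
  refine ⟨Finite.of_equiv _ (Equiv.sumCompl P), ?_⟩
  rw [← Nat.card_congr (Equiv.sumCompl P), Nat.card_sum, Nat.cast_add]
  linarith

end FA.QuarticCount
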