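import Fermat.Agent.QuarticCount.Identity

/-!
# The pair of forms determines the field

Two quartic fields whose pairs of ternary forms, in bases `1, u, v, w`, have the same common zeros
are isomorphic: the four common zeros are permuted by a linear map, so the conjugates of the
trace-zero parts agree up to one permutation and one factor, and their ratios generate the field.
-/

set_option autoImplicit false
set_option linter.style.haveILetI false

noncomputable section

open Finset Matrix Module
open scoped ComplexConjugate IntermediateField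

namespace FA.QuarticCount

variable {L : Type} [Field L] [NumberField L] {L' : Type} [Field L'] [NumberField L']

/-- The four conjugates of an element. -/
def emb (e : Fin 4 ≃ (L →ₐ[ℚ] ℂ)) (x : L) : Fin 4 → ℂ := fun j => e j x

theorem emb_one (e : Fin 4 ≃ (L →ₐ[ℚ] ℂ)) : emb e 1 = 1 := funext fun _ => map_one _

theorem finrank_eq_four (e : Fin 4 ≃ (L →ₐ[ℚ] ℂ)) : finrank ℚ L = 4 := by
  rw [← AlgHom.card ℚ L ℂ, ← Fintype.card_congr e, Fintype.card_fin]

/-- Independent elements have independent conjugates. -/
theorem linearIndependent_emb (e : Fin 4 ≃ (L →ₐ[ℚ] ℂ)) {y : Fin 4 → L}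
    (hy : LinearIndependent ℚ y) : LinearIndependent ℂ fun k => emb e (y k) := by
  refine Matrix.linearIndependent_rows_of_det_ne_zero
    (A := Matrix.of fun k j => e j (y k)) ?_
  intro h
  have hb := Algebra.discr_not_zero_of_basis ℚ
    (basisOfLinearIndependentOfCardEqFinrank hy (by rw [Fintype.card_fin, finrank_eq_four e]))
  rw [coe_basisOfLinearIndependentOfCardEqFinrank] at hb
  have h' := Algebra.discr_eq_det_embeddingsMatrixReindex_pow_two ℚ ℂ y e
  rw [show Algebra.embeddingsMatrixReindex ℚ ℂ y e = Matrix.of fun k j => e j (y k) from rfl, h,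
    zero_pow two_ne_zero] at h'
  exact hb ((map_eq_zero _).1 h')

theorem psi_add_const (a : Fin 4 → ℂ) (c : ℂ) : psi (a + c • 1) = psi a := by
  ext <;> simp [psi]

/-- **A linear map that preserves the common zeros** permutes the coordinates, up to a factor and
constants. -/
theorem exists_affine (A : (Fin 4 → ℂ) ≃ₗ[ℂ] (Fin 4 → ℂ)) (h1 : A 1 = 1)
    (h : ∀ a, psi a = 0 → psi (A a) = 0) : ∃ (π : Equiv.Perm (Fin 4)) (t : ℂ)
      (s : (Fin 4 → ℂ) → ℂ), t ≠ 0 ∧ ∀ a j, A a (π j) = t * a j + s a := by
  set u : Fin 4 → (Fin 4 → ℂ) := fun j => Pi.single j 1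
  choose k t s hk using fun j => psi_eq_zero (h (u j) (psi_single j))
  have hvec : ∀ j, A (u j) = Pi.single (k j) (t j) + s j • 1 := fun j => funext fun i => by
    rw [hk j i]; simp [Pi.single_apply]
  have third : ∀ i j : Fin 4, ∃ m, m ≠ i ∧ m ≠ j := by decide
  have ht : ∀ j, t j ≠ 0 := by
    intro j hj
    have e := A.injective (a₁ := u j) (a₂ := s j • 1) (by simp [hvec j, hj, h1])
    obtain ⟨m, hm, -⟩ := third j j
    have em := congrFun e m
    have ej := congrFun e j
    simp [u, hm] at em ej
    rw [← em] at ej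
    exact one_ne_zero ej
  have hinj : Function.Injective k := by
    intro i j hij
    by_contra hne
    have e := A.injective (a₁ := t j • u i - t i • u j)
      (a₂ := (t j * s i - t i * s j) • 1) (by
        funext m
        simp [h1, hvec, hij, Pi.single_apply]
        split_ifs <;> ring)
    obtain ⟨m, hmi, hmj⟩ := third i j
    have em := congrFun e m
    have ei := congrFun e i
    simp [u, hmi, hmj, hne] at em ei
    rw [← em] at ei
    exact ht j ei
  let π : Equiv.Perm (Fin 4) := Equiv.ofBijective k hinj.bijective_of_finite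
  have hA : ∀ a i, A a (k i) = t i * a i + ∑ j, a j * s j := by
    intro a i
    have ea : a = ∑ j, a j • u j := funext fun m => by
      simp [u, Finset.sum_apply, Pi.single_apply]
    conv_lhs => rw [ea, map_sum]
    simp only [map_smul, hvec, Finset.sum_apply, Pi.smul_apply, Pi.add_apply, Pi.one_apply,
      smul_eq_mul, mul_one, mul_add, Finset.sum_add_distrib, Pi.single_apply, hinj.eq_iff]
    simp [mul_comm]
  have hconst : ∀ i, t i = t 0 := fun i => by
    have e0 := hA 1 0
    have ei := hA 1 i
    simp [h1] at e0 ei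
    linear_combination e0 - ei
  exact ⟨π, t 0, fun a => ∑ j, a j * s j, ht 0, fun a j => by
    rw [← hconst j]; exact hA a j⟩

/-- The multiple of the trace-zero part. -/
def centred (x : L) : L := 4 * x - algebraMap ℚ L (Algebra.trace ℚ L x)

theorem emb_centred (e : Fin 4 ≃ (L →ₐ[ℚ] ℂ)) (x : L) (j : Fin 4) :
    e j (centred x) = 4 * e j x - ∑ i, e i x := by
  rw [centred, map_sub, map_mul, map_ofNat, AlgHom.commutes, trace_eq_sum_embeddings ℂ,
    Equiv.sum_comp e fun σ : L →ₐ[ℚ] ℂ => σ x]

theorem linearIndependent_centred {x : Fin 3 → L}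
    (hx : LinearIndependent ℚ (Fin.cons 1 x : Fin 4 → L)) :
    LinearIndependent ℚ fun i => centred (x i) := by
  rw [Fintype.linearIndependent_iff] at hx ⊢
  intro g hg i
  have := hx (Fin.cons (-∑ m, g m * Algebra.trace ℚ L (x m)) fun m => 4 * g m) (by
    rw [Fin.sum_univ_succ]
    simp only [Fin.cons_zero, Fin.cons_succ]
    rw [← hg]
    simp only [centred, Algebra.smul_def, map_neg, map_mul, map_ofNat, mul_one,
      Fin.sum_univ_three, map_add]
    ring) i.succ
  simpa using this

/-- **The relation between the conjugates.** -/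
theorem exists_relation (e : Fin 4 ≃ (L →ₐ[ℚ] ℂ)) (e' : Fin 4 ≃ (L' →ₐ[ℚ] ℂ))
    {x : Fin 3 → L} {x' : Fin 3 → L'} (hx : LinearIndependent ℚ (Fin.cons 1 x : Fin 4 → L))
    (hx' : LinearIndependent ℚ (Fin.cons 1 x' : Fin 4 → L'))
    (h : ∀ c : Fin 3 → ℂ, psi (∑ i, c i • emb e (x i)) = 0 →
      psi (∑ i, c i • emb e' (x' i)) = 0) :
    ∃ (π : Equiv.Perm (Fin 4)) (t : ℂ), t ≠ 0 ∧
      ∀ i j, e' (π j) (centred (x' i)) = t * e j (centred (x i)) := by
  set B := basisOfLinearIndependentOfCardEqFinrank (linearIndependent_emb e hx)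
    (by rw [Fintype.card_fin, Module.finrank_fin_fun]) with hB
  set B' := basisOfLinearIndependentOfCardEqFinrank (linearIndependent_emb e' hx')
    (by rw [Fintype.card_fin, Module.finrank_fin_fun]) with hB'
  set A := B.equiv B' (Equiv.refl _)
  have hAB : ∀ k, A (emb e ((Fin.cons 1 x : Fin 4 → L) k)) =
      emb e' ((Fin.cons 1 x' : Fin 4 → L') k) := fun k => by
    have := B.equiv_apply k B' (Equiv.refl _)
    simpa [hB, hB', A] using this
  have h1 : A 1 = 1 := by simpa [emb_one] using hAB 0
  have hx2 : ∀ i, A (emb e (x i)) = emb e' (x' i) := fun i => by simpa using hAB i.succ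
  obtain ⟨π, t, s, ht, hA⟩ := exists_affine A h1 fun a ha => by
    have ea : a = (∑ i, B.repr a i.succ • emb e (x i)) + B.repr a 0 • 1 := by
      conv_lhs => rw [← B.sum_repr a, Fin.sum_univ_succ]
      simp [hB, emb_one, add_comm]
    rw [ea, psi_add_const] at ha
    rw [ea, map_add, map_sum, map_smul, h1, psi_add_const]
    simp only [map_smul, hx2]
    exact h _ ha
  refine ⟨π, t, ht, fun i j => ?_⟩
  have hj : ∀ m, e' (π m) (x' i) = t * e m (x i) + s (emb e (x i)) := fun m => by
    have := hA (emb e (x i)) m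
    rw [hx2] at this
    exact this
  rw [emb_centred, emb_centred, ← Equiv.sum_comp π, hj j]
  simp only [hj, Fin.sum_univ_four]
  ring

/-- **The pair of forms determines the field**: bases with the same common zeros give isomorphic
fields. -/
theorem pair_determines_field (e : Fin 4 ≃ (L →ₐ[ℚ] ℂ)) (e' : Fin 4 ≃ (L' →ₐ[ℚ] ℂ))
    {x : Fin 3 → L} {x' : Fin 3 → L'} (hx : LinearIndependent ℚ (Fin.cons 1 x : Fin 4 → L))
    (hx' : LinearIndependent ℚ (Fin.cons 1 x' : Fin 4 → L'))
    (h : ∀ c : Fin 3 → ℂ, psi (∑ i, c i • emb e (x i)) = 0 →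
      psi (∑ i, c i • emb e' (x' i)) = 0) : Nonempty (L ≃+* L') := by
  obtain ⟨π, t, ht, hrel⟩ := exists_relation e e' hx hx' h
  have key : ∀ {M : Type} [Field M] [NumberField M], finrank ℚ M = 4 → ∀ {y : Fin 3 → M},
      LinearIndependent ℚ y →
      IntermediateField.adjoin ℚ (Set.range fun i => y i / y 0) = ⊤ := by
    intro M _ _ hM y hy
    set F := IntermediateField.adjoin ℚ (Set.range fun i => y i / y 0)
    have hy0 : y 0 ≠ 0 := hy.ne_zero 0
    have h3 : 3 ≤ finrank ℚ F := by
      have hli : LinearIndependent ℚ fun i : Fin 3 =>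
          (⟨y i / y 0, IntermediateField.subset_adjoin ℚ _ ⟨i, rfl⟩⟩ : F) := by
        refine LinearIndependent.of_comp F.val.toLinearMap ?_
        have := hy.map' (LinearMap.mulRight ℚ (y 0)⁻¹)
          (LinearMap.ker_eq_bot.2 (mul_left_injective₀ (inv_ne_zero hy0)))
        have e2 : (⇑(LinearMap.mulRight ℚ (y 0)⁻¹) ∘ y) = fun i => y i / y 0 :=
          funext fun i => by simp [div_eq_mul_inv]
        rw [e2] at this
        exact this
      simpa using hli.fintype_card_le_finrank
    have hdvd : finrank ℚ F ∣ 4 := hM ▸ ⟨_, (Module.finrank_mul_finrank ℚ F M).symm⟩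
    have h4 : finrank ℚ F = 4 := by
      have := Nat.le_of_dvd (by norm_num) hdvd
      interval_cases hF : finrank ℚ F
      · norm_num at hdvd
      · rfl
    exact IntermediateField.eq_of_le_of_finrank_eq le_top (by
      rw [IntermediateField.finrank_top', hM, h4])
  have hr : (e 0).fieldRange = (e' (π 0)).fieldRange := by
    rw [AlgHom.fieldRange_eq_map, AlgHom.fieldRange_eq_map,
      ← key (finrank_eq_four e) (linearIndependent_centred hx),
      ← key (finrank_eq_four e') (linearIndependent_centred hx'),
      IntermediateField.adjoin_map, IntermediateField.adjoin_map, ← Set.range_comp,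
      ← Set.range_comp]
    congr 2
    funext i
    simp only [Function.comp_apply, map_div₀, hrel]
    rw [mul_div_mul_left _ _ ht]
  exact ⟨((AlgEquiv.ofInjectiveField (e 0)).trans ((IntermediateField.equivOfEq hr).trans
    (AlgEquiv.ofInjectiveField (e' (π 0))).symm)).toRingEquiv⟩

end FA.QuarticCount
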