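import Fermat.Agent.Perfect.Transference
import Fermat.Agent.QuarticCount.Recovery
import Fermat.Agent.QuarticResolvent.Depressed

/-!
# The lattice of the values of the pair

The values of `ψ` at the integers of a quartic field span a lattice whose minors are multiples of
`√d`; the hermitian product is real on it, so it has two independent vectors whose lengths multiply
to at most twice the covolume; without a quadratic subfield no coordinate of a value vanishes.
-/

set_option autoImplicit false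
set_option linter.style.haveILetI false

noncomputable section

open NumberField Module Finset Matrix
open FA.QuarticResolvent (Depressed QuadRoots exists_local)
open FA.Perfect (castVec ival succMin succMin_eq exists_minimaFamily prod_succMin_bounds
  hermiteInv_le_hermite)
open FA.Reduction (quad)
open scoped ComplexConjugate Classical

namespace FA.QuarticCount

variable {L : Type} [Field L] [NumberField L]

/-- The determinant of an integral basis. -/
theorem exists_delta (e : Fin 4 ≃ (L →ₐ[ℚ] ℂ)) :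
    ∃ δ : ℂ, δ ^ 2 = (discr L : ℂ) ∧ δ ≠ 0 ∧ ∀ y : Fin 4 → 𝓞 L,
      ∃ n : ℤ, (Matrix.of fun k => emb e (y k : L)).det = (n : ℂ) * δ := by
  have hcard : Fintype.card (Free.ChooseBasisIndex ℤ (𝓞 L)) = 4 := by
    rw [← finrank_eq_card_chooseBasisIndex, RingOfIntegers.rank, finrank_eq_four e]
  set ε : Free.ChooseBasisIndex ℤ (𝓞 L) ≃ Fin 4 := Fintype.equivFinOfCardEq hcard
  set b := (RingOfIntegers.basis L).reindex ε
  set δ := (Matrix.of fun k => emb e (b k : L)).det
  have hδ : δ ^ 2 = (discr L : ℂ) := by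
    have h := Algebra.discr_eq_det_embeddingsMatrixReindex_pow_two ℚ ℂ
      (fun k => (b k : L)) e
    rw [show (fun k => (b k : L)) = ⇑((integralBasis L).reindex ε) from funext fun k => by
        simp [b, Basis.reindex_apply, integralBasis_apply],
      Basis.coe_reindex, Algebra.discr_reindex, ← coe_discr, map_intCast] at h
    rw [h]
    refine congrArg (fun M : Matrix (Fin 4) (Fin 4) ℂ => M.det ^ 2) ?_
    ext k i
    simp [Algebra.embeddingsMatrixReindex, Algebra.embeddingsMatrix, emb, b,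
      Basis.reindex_apply, integralBasis_apply]
  refine ⟨δ, hδ, fun h0 => ?_, fun y => ?_⟩
  · rw [h0, zero_pow two_ne_zero] at hδ
    exact discr_ne_zero L (Int.cast_eq_zero.1 hδ.symm)
  · refine ⟨(Matrix.of fun k i => b.repr (y k) i).det, ?_⟩
    rw [← eq_intCast (Int.castRingHom ℂ), RingHom.map_det, ← Matrix.det_mul]
    congr 1
    ext k i
    simp only [Matrix.mul_apply, RingHom.mapMatrix_apply, Matrix.map_apply, Matrix.of_apply,
      eq_intCast, emb]
    conv_lhs => rw [← b.sum_repr (y k)]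
    rw [RingOfIntegers.coe_eq_algebraMap, map_sum, map_sum]
    refine Finset.sum_congr rfl fun m _ => ?_
    rw [zsmul_eq_mul, map_mul, map_intCast, map_mul, map_intCast]

theorem norm_delta {δ : ℂ} (h : δ ^ 2 = (discr L : ℂ)) : ‖δ‖ = Real.sqrt |(discr L : ℝ)| := by
  have h' := congrArg norm h
  rw [norm_pow, Complex.norm_intCast] at h'
  rw [← h', Real.sqrt_sq (norm_nonneg _)]

/-- The minors of the values are integral multiples of the determinant. -/
theorem exists_det_psi {e : Fin 4 ≃ (L →ₐ[ℚ] ℂ)} {δ : ℂ}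
    (hδ : ∀ y : Fin 4 → 𝓞 L, ∃ n : ℤ, (Matrix.of fun k => emb e (y k : L)).det = (n : ℂ) * δ)
    (x y : 𝓞 L) : ∃ n : ℤ, det2 (psi (emb e (x : L))) (psi (emb e (y : L))) = (n : ℂ) * δ := by
  obtain ⟨n, hn⟩ := hδ ![1, x, y, x * y]
  refine ⟨-n, ?_⟩
  rw [det2_psi, Int.cast_neg, neg_mul, ← hn]
  congr 2
  ext k i
  fin_cases k <;> simp [emb]

/-- Complex conjugation permutes the embeddings. -/
theorem exists_conj_perm (e : Fin 4 ≃ (L →ₐ[ℚ] ℂ)) :
    ∃ π : Equiv.Perm (Fin 4), ∀ (x : L) j, conj (e j x) = e (π j) x := by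
  let c : (L →ₐ[ℚ] ℂ) → (L →ₐ[ℚ] ℂ) := fun f =>
    (Complex.conjAe.restrictScalars ℚ).toAlgHom.comp f
  have hc : ∀ f x, c f x = conj (f x) := fun _ _ => rfl
  have hinj : Function.Injective c := fun f g h => AlgHom.ext fun x => by
    have := congrArg conj (hc f x)
    rwa [Complex.conj_conj, h, hc, Complex.conj_conj, eq_comm] at this
  refine ⟨Equiv.ofBijective (fun j => e.symm (c (e j)))
    ((e.symm.injective.comp (hinj.comp e.injective)).bijective_of_finite), fun x j => ?_⟩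
  simp [hc]

/-- The lattice of the values. -/
def valueLattice (e : Fin 4 ≃ (L →ₐ[ℚ] ℂ)) : AddSubgroup (ℂ × ℂ) :=
  AddSubgroup.closure (Set.range fun x : 𝓞 L => psi (emb e (x : L)))

theorem psi_mem (e : Fin 4 ≃ (L →ₐ[ℚ] ℂ)) (x : 𝓞 L) :
    psi (emb e (x : L)) ∈ valueLattice e :=
  AddSubgroup.subset_closure ⟨x, rfl⟩

theorem beta_mem (e : Fin 4 ≃ (L →ₐ[ℚ] ℂ)) (x y : 𝓞 L) :
    beta (emb e (x : L)) (emb e (y : L)) ∈ valueLattice e := by
  have h := AddSubgroup.sub_mem _ (AddSubgroup.sub_mem _ (psi_mem e (x + y)) (psi_mem e x))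
    (psi_mem e y)
  have he : emb e ((x + y : 𝓞 L) : L) = emb e (x : L) + emb e (y : L) := by
    funext j; simp [emb]
  rw [he, psi_add] at h
  convert h using 1
  abel

theorem exists_det_mem {e : Fin 4 ≃ (L →ₐ[ℚ] ℂ)} {δ : ℂ}
    (hδ : ∀ y : Fin 4 → 𝓞 L, ∃ n : ℤ, (Matrix.of fun k => emb e (y k : L)).det = (n : ℂ) * δ)
    {g h : ℂ × ℂ} (hg : g ∈ valueLattice e) (hh : h ∈ valueLattice e) :
    ∃ n : ℤ, det2 g h = (n : ℂ) * δ := by
  induction hg, hh using AddSubgroup.closure_induction₂ with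
  | mem u v hu hv =>
    obtain ⟨x, rfl⟩ := hu
    obtain ⟨y, rfl⟩ := hv
    exact exists_det_psi hδ x y
  | zero_left v _ => exact ⟨0, by simp [det2]⟩
  | zero_right u _ => exact ⟨0, by simp [det2]⟩
  | add_left u v w _ _ _ h1 h2 =>
    obtain ⟨m, hm⟩ := h1
    obtain ⟨n, hn⟩ := h2
    exact ⟨m + n, by rw [det2_add_left, hm, hn]; push_cast; ring⟩
  | add_right u v w _ _ _ h1 h2 =>
    obtain ⟨m, hm⟩ := h1
    obtain ⟨n, hn⟩ := h2
    exact ⟨m + n, by rw [det2_add_right, hm, hn]; push_cast; ring⟩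
  | neg_left u v _ _ h1 =>
    obtain ⟨m, hm⟩ := h1
    refine ⟨-m, ?_⟩
    simp only [det2, Prod.fst_neg, Prod.snd_neg] at hm ⊢
    push_cast
    linear_combination -hm
  | neg_right u v _ _ h1 =>
    obtain ⟨m, hm⟩ := h1
    exact ⟨-m, by rw [det2_neg_right, hm]; push_cast; ring⟩

theorem herm_real_mem {e : Fin 4 ≃ (L →ₐ[ℚ] ℂ)} {g h : ℂ × ℂ} (hg : g ∈ valueLattice e)
    (hh : h ∈ valueLattice e) : conj (herm g h) = herm g h := by
  obtain ⟨π, hπ⟩ := exists_conj_perm e
  induction hg, hh using AddSubgroup.closure_induction₂ with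
  | mem u v hu hv =>
    obtain ⟨x, rfl⟩ := hu
    obtain ⟨y, rfl⟩ := hv
    exact herm_psi_real π (fun j => hπ _ j) (fun j => hπ _ j)
  | zero_left v _ => simp [herm]
  | zero_right u _ => simp [herm]
  | add_left u v w _ _ _ h1 h2 =>
    simp only [herm, Prod.fst_add, Prod.snd_add, map_add, map_sub, map_mul,
      Complex.conj_conj] at h1 h2 ⊢
    linear_combination h1 + h2
  | add_right u v w _ _ _ h1 h2 =>
    simp only [herm, Prod.fst_add, Prod.snd_add, map_add, map_sub, map_mul,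
      Complex.conj_conj] at h1 h2 ⊢
    linear_combination h1 + h2
  | neg_left u v _ _ h1 =>
    simp only [herm, Prod.fst_neg, Prod.snd_neg, map_neg, map_add, map_sub, map_mul,
      Complex.conj_conj] at h1 ⊢
    linear_combination -h1
  | neg_right u v _ _ h1 =>
    simp only [herm, Prod.fst_neg, Prod.snd_neg, map_neg, map_add, map_sub, map_mul,
      Complex.conj_conj] at h1 ⊢
    linear_combination -h1

/-- **The covolume**: the minors are multiples of `√|d|`, and one of them is not zero. -/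
theorem exists_minor_ne_zero (hk : ∀ k : IntermediateField ℚ L, finrank ℚ k ≠ 2)
    (e : Fin 4 ≃ (L →ₐ[ℚ] ℂ)) :
    ∃ x y : 𝓞 L, det2 (psi (emb e (x : L))) (psi (emb e (y : L))) ≠ 0 ∧
      ∀ a b : ℂ, (∃ c d : ℤ, a = c ∧ b = d) → (a ≠ 0 ∨ b ≠ 0) →
        ∀ g : ℂ × ℂ, g = a • psi (emb e (x : L)) + b • psi (emb e (y : L)) →
          g.1 ≠ 0 ∧ g.2 ≠ 0 ∧ g.1 ≠ g.2 := by
  have hn := finrank_eq_four e
  obtain ⟨D, θ, hθ, -⟩ := exists_local hn (ℓ := 5) (by norm_num) (by norm_num)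
  have hR := D.noRatRoot hk
  set x := fun j => e j D.θ
  have hr : QuadRoots (D.p : ℂ) D.q D.r x := D.quadRoots hn e
  obtain ⟨hp, -, hr4⟩ := hr.coeff_eq
  obtain ⟨n12, n13, n23⟩ := hr.val_ne
  have e3 : x 3 = -(x 0 + x 1 + x 2) := by linear_combination hr.sum_eq
  set z := QuadRoots.val x with hz
  have hx1 : psi (emb e ((θ : 𝓞 L) : L)) = (z 1 - z 2, z 1 - z 3) := by
    rw [hθ]
    ext <;> simp [psi, emb, hz, QuadRoots.val] <;>
      simp only [show ∀ j, e j D.θ = x j from fun j => rfl, e3] <;> ring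
  have hx2 : psi (emb e ((θ ^ 2 : 𝓞 L) : L)) = (-z 3 * (z 1 - z 2), -z 2 * (z 1 - z 3)) := by
    ext <;> simp [psi, emb, hθ, hz, QuadRoots.val] <;>
      simp only [show ∀ j, e j D.θ = x j from fun j => rfl, e3] <;> ring
  refine ⟨θ, θ ^ 2, ?_, ?_⟩
  · rw [hx1, hx2, show det2 (z 1 - z 2, z 1 - z 3) (-z 3 * (z 1 - z 2), -z 2 * (z 1 - z 3)) =
      (z 1 - z 2) * (z 1 - z 3) * (z 3 - z 2) by simp only [det2]; ring]
    exact mul_ne_zero (mul_ne_zero (sub_ne_zero.2 n12) (sub_ne_zero.2 n13))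
      (sub_ne_zero.2 n23.symm)
  · rintro a b ⟨c, d, rfl, rfl⟩ hcd g rfl
    have hne : ∀ j : Fin 4, j ≠ 0 → (c : ℂ) - d * z j ≠ 0 := by
      intro j hj h0
      rcases eq_or_ne d 0 with rfl | hd
      · simp at h0 hcd
        exact hcd h0
      have e' : z j = ((c / d : ℚ) : ℂ) := by
        push_cast
        rw [eq_div_iff (Int.cast_ne_zero.2 hd)]
        linear_combination -h0
      refine hR (c / d) ?_
      have h := hr.resEval_val hj
      rw [← hz, e'] at h
      unfold FA.QuarticResolvent.resEval at h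
      show FA.QuarticResolvent.resEval _ _ _ _ = 0
      unfold FA.QuarticResolvent.resEval
      exact_mod_cast h
    rw [hx1, hx2]
    simp only [Prod.fst_add, Prod.snd_add, Prod.smul_fst, Prod.smul_snd, smul_eq_mul]
    refine ⟨?_, ?_, fun h => ?_⟩
    · rw [show (c : ℂ) * (z 1 - z 2) + d * (-z 3 * (z 1 - z 2)) =
        (z 1 - z 2) * ((c : ℂ) - d * z 3) by ring]
      exact mul_ne_zero (sub_ne_zero.2 n12) (hne 3 (by decide))
    · rw [show (c : ℂ) * (z 1 - z 3) + d * (-z 2 * (z 1 - z 3)) =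
        (z 1 - z 3) * ((c : ℂ) - d * z 2) by ring]
      exact mul_ne_zero (sub_ne_zero.2 n13) (hne 2 (by decide))
    · exact mul_ne_zero (sub_ne_zero.2 n23.symm) (hne 1 (by decide))
        (by linear_combination h)

/-- No nonzero value has a vanishing coordinate. -/
theorem nondegenerate (hk : ∀ k : IntermediateField ℚ L, finrank ℚ k ≠ 2)
    (e : Fin 4 ≃ (L →ₐ[ℚ] ℂ)) {g : ℂ × ℂ} (hg : g ∈ valueLattice e) (hg0 : g ≠ 0) :
    g.1 ≠ 0 ∧ g.2 ≠ 0 ∧ g.1 ≠ g.2 := by
  obtain ⟨δ, -, hδ0, hδ⟩ := exists_delta e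
  obtain ⟨x, y, hxy, hnd⟩ := exists_minor_ne_zero hk e
  set u := psi (emb e (x : L))
  set v := psi (emb e (y : L))
  obtain ⟨k, hk'⟩ := exists_det_mem hδ (psi_mem e x) (psi_mem e y)
  obtain ⟨a, ha⟩ := exists_det_mem hδ hg (psi_mem e y)
  obtain ⟨b, hb⟩ := exists_det_mem hδ (psi_mem e x) hg
  have hk0 : (k : ℂ) ≠ 0 := fun h => hxy (by rw [hk', h, zero_mul])
  have hcr : (k : ℂ) • g = (a : ℂ) • u + (b : ℂ) • v := by
    refine eq_of_sub_eq_zero (eq_zero_of_det2 hxy ?_ ?_) <;>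
      refine mul_left_cancel₀ hδ0 ?_ <;>
      simp only [det2, Prod.fst_sub, Prod.snd_sub, Prod.fst_add, Prod.snd_add, Prod.smul_fst,
        Prod.smul_snd, smul_eq_mul] at hk' ha hb ⊢
    · linear_combination -(u.1 * g.2 - u.2 * g.1) * hk' + (u.1 * v.2 - u.2 * v.1) * hb
    · linear_combination -(v.1 * g.2 - v.2 * g.1) * hk' - (u.1 * v.2 - u.2 * v.1) * ha
  have h := hnd a b ⟨a, b, rfl, rfl⟩ (by
    by_contra! hab
    refine hg0 ((smul_eq_zero.1 ?_).resolve_left hk0)
    rw [hcr, hab.1, hab.2, zero_smul, zero_smul, add_zero]) _ hcr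
  simpa [hk0] using h

end FA.QuarticCount
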