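import Fermat.Agent.QuarticCount.Frame

/-!
# Counting one dyadic range

Frames of comparable sizes give coefficients in one box, so the changes of all of them are at most
`24` times its points. The box has `O (|d|)` points for each change, with a saving in every ratio
of sizes, so the ranges sum to `O (X)`.
-/

set_option autoImplicit false
set_option linter.style.haveILetI false

noncomputable section

open NumberField Module Finset
open scoped Classical

namespace FA.QuarticCount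

variable {ι : Type} {L : ι → Type} [∀ i, Field (L i)] [∀ i, NumberField (L i)] {C : ℝ}

/-- **At most `24` changes for each coefficient tuple.** -/
theorem sum_params_le (F : ∀ i, Frame (L i) C) (hne : ∀ i j, Nonempty (L i ≃+* L j) → i = j)
    (S : Finset ι) (box : Finset (Fin 6 → ℤ × ℤ))
    (hbox : ∀ i ∈ S, ∀ a ∈ (F i).params, (F i).tuple a ∈ box) :
    ∑ i ∈ S, (F i).params.card ≤ 24 * box.card := by
  rw [← Finset.card_sigma]
  refine Finset.card_le_mul_card_image_of_maps_to (f := fun p => (F p.1).tuple p.2)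
    (fun p hp => hbox p.1 (mem_sigma.1 hp).1 p.2 (mem_sigma.1 hp).2) 24 fun b _ => ?_
  set T := {p ∈ S.sigma fun i => (F i).params | (F p.1).tuple p.2 = b} with hT
  rcases T.eq_empty_or_nonempty with hE | ⟨⟨i₀, a₀⟩, hp₀⟩
  · simp [hE]
  have h₀ : (F i₀).tuple a₀ = b := (mem_filter.1 hp₀).2
  have hfield : ∀ i a, (F i).tuple a = b → i₀ = i := fun i a h => hne _ _
    (pair_determines_field (F i₀).e (F i).e ((F i₀).moved_indep a₀) ((F i).moved_indep a)
      ((F i₀).zeros_of_tuple (F i) (h₀.trans h.symm)))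
  have hrel : ∀ p : T, ∃ (π : Equiv.Perm (Fin 4)) (t : ℂ), t ≠ 0 ∧
      ∀ i j, (F p.1.1).e (π j) (centred ((F p.1.1).moved p.1.2 i : L p.1.1)) =
        t * (F i₀).e j (centred ((F i₀).moved a₀ i : L i₀)) := fun p =>
    exists_relation (F i₀).e (F p.1.1).e ((F i₀).moved_indep a₀) ((F p.1.1).moved_indep p.1.2)
      ((F i₀).zeros_of_tuple (F p.1.1) (h₀.trans (mem_filter.1 p.2).2.symm))
  choose π t ht hπ using hrel
  have hinj : Function.Injective π := by
    rintro ⟨⟨i, a⟩, hp⟩ ⟨⟨i', a'⟩, hp'⟩ h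
    obtain rfl : i₀ = i := hfield i a (mem_filter.1 hp).2
    obtain rfl : i₀ = i' := hfield i' a' (mem_filter.1 hp').2
    have h2 := hπ ⟨⟨i₀, a'⟩, hp'⟩
    rw [← h] at h2
    obtain rfl : a = a' := (F i₀).params_unique
      ((mem_filter.1 hp).2.trans (mem_filter.1 hp').2.symm)
      _ (hπ ⟨⟨i₀, a⟩, hp⟩) h2
    rfl
  have := Fintype.card_le_of_injective π hinj
  simpa [Fintype.card_perm, Nat.factorial] using this

theorem card_Icc_symm_le {R : ℝ} (hR : 0 ≤ R) :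
    ((Finset.Icc (-⌊R⌋) ⌊R⌋).card : ℝ) ≤ 3 * max R 1 := by
  have h0 : 0 ≤ ⌊R⌋ := Int.floor_nonneg.2 hR
  rw [Int.card_Icc, show ((⌊R⌋ + 1 - -⌊R⌋).toNat : ℝ) = ((⌊R⌋ + 1 - -⌊R⌋ : ℤ) : ℝ) by
    exact_mod_cast congrArg (Int.cast : ℤ → ℝ) (Int.toNat_of_nonneg (by omega))]
  push_cast
  linarith [Int.floor_le R, le_max_left R 1, le_max_right R 1]

/-- **The box.** -/
theorem exists_box {L' : Type} [Field L'] [NumberField L'] {A : ℝ} (hA : 16 ≤ A)
    (F : Frame L' C) :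
    ∃ box : Finset (Fin 6 → ℤ × ℤ),
      (∀ T : Fin 6 → ℤ × ℤ, (∀ k,
        (|(T k).1| : ℝ) ≤ A * F.ν 0 * F.l (Frame.fstIdx k) * F.l (Frame.sndIdx k) ∧
        (|(T k).2| : ℝ) ≤ A * F.ν 1 * F.l (Frame.fstIdx k) * F.l (Frame.sndIdx k)) → T ∈ box) ∧
      (box.card : ℝ) ≤ 3 ^ 12 * A ^ 12 * (max (F.ν 0 * F.l 0 ^ 2) 1 *
        max (F.ν 0 * F.l 0 * F.l 1) 1 *
        (F.ν 0 ^ 4 * F.ν 1 ^ 6 * (F.l 0 ^ 5 * F.l 1 ^ 7 * F.l 2 ^ 8))) := by
  have h0 := F.l_pos 0; have h1 := F.l_pos 1; have h2 := F.l_pos 2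
  have hν := F.ν_pos; have hν1 := F.ν_pos' 1
  have hA0 : 0 < A := by linarith
  have h01 := F.l_mono (show (0 : Fin 3) ≤ 1 by decide)
  have h12 := F.l_mono (show (1 : Fin 3) ≤ 2 by decide)
  set R : Fin 2 → Fin 6 → ℝ :=
    fun s k => A * F.ν s * F.l (Frame.fstIdx k) * F.l (Frame.sndIdx k)
  have hR : ∀ s k, 0 ≤ R s k := fun s k => by
    have := F.ν_pos' s; have := F.l_pos (Frame.fstIdx k); have := F.l_pos (Frame.sndIdx k)
    positivity
  refine ⟨Fintype.piFinset fun k =>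
    Icc (-⌊R 0 k⌋) ⌊R 0 k⌋ ×ˢ Icc (-⌊R 1 k⌋) ⌊R 1 k⌋, fun T hT => ?_, ?_⟩
  · have key : ∀ (z : ℤ) (r : ℝ), (|z| : ℝ) ≤ r → z ∈ Icc (-⌊r⌋) ⌊r⌋ := fun z r h => by
      have h' : |z| ≤ ⌊r⌋ := Int.le_floor.2 (by rw [Int.cast_abs]; exact h)
      exact mem_Icc.2 (abs_le.1 h')
    exact Fintype.mem_piFinset.2 fun k => mem_product.2 ⟨key _ _ (hT k).1, key _ _ (hT k).2⟩
  rw [Fintype.card_piFinset]
  push_cast [card_product]
  refine (Finset.prod_le_prod (fun k _ => by positivity) fun k _ => mul_le_mul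
    (card_Icc_symm_le (hR 0 k)) (card_Icc_symm_le (hR 1 k)) (Nat.cast_nonneg _)
      (by positivity)).trans ?_
  rw [Finset.prod_mul_distrib, Fin.prod_univ_six, Fin.prod_univ_six]
  have big0 : ∀ i j : Fin 3, F.l 0 * F.l 2 ≤ F.l i * F.l j ∨ F.l 1 * F.l 1 ≤ F.l i * F.l j →
      1 ≤ A * F.ν 0 * F.l i * F.l j := by
    rintro i j (h | h)
    · have := mul_le_mul hA (mul_le_mul_of_nonneg_left h hν.le) (by positivity) hA0.le
      linarith [F.one_le_02]
    · have := mul_le_mul hA (mul_le_mul_of_nonneg_left h hν.le) (by positivity) hA0.le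
      linarith [F.one_le_11]
  have big1 : ∀ i j : Fin 3, 1 ≤ A * F.ν 1 * F.l i * F.l j := fun i j => by
    have h := mul_le_mul (F.l_mono (Fin.zero_le i)) (F.l_mono (Fin.zero_le j)) h0.le
      (F.l_pos i).le
    have := mul_le_mul hA (mul_le_mul_of_nonneg_left h hν1.le) (by positivity) hA0.le
    linarith [F.one_le_00]
  have e02 := big0 0 2 (Or.inl le_rfl)
  have e11 := big0 1 1 (Or.inr le_rfl)
  have e12 := big0 1 2 (Or.inr (mul_le_mul_of_nonneg_left h12 h1.le))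
  have e22 := big0 2 2 (Or.inr (mul_le_mul h12 h12 h1.le h2.le))
  have m00 : max (A * F.ν 0 * F.l 0 * F.l 0) 1 ≤ A * max (F.ν 0 * F.l 0 ^ 2) 1 :=
    max_le ((le_of_eq (by ring)).trans (mul_le_mul_of_nonneg_left (le_max_left _ _) hA0.le))
      (one_le_mul_of_one_le_of_one_le (by linarith) (le_max_right _ _))
  have m01 : max (A * F.ν 0 * F.l 0 * F.l 1) 1 ≤ A * max (F.ν 0 * F.l 0 * F.l 1) 1 :=
    max_le ((le_of_eq (by ring)).trans (mul_le_mul_of_nonneg_left (le_max_left _ _) hA0.le))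
      (one_le_mul_of_one_le_of_one_le (by linarith) (le_max_right _ _))
  simp only [R, Frame.fstIdx, Frame.sndIdx, Matrix.cons_val, max_eq_left e02, max_eq_left e11,
    max_eq_left e12, max_eq_left e22, max_eq_left (big1 _ _)]
  calc _ ≤ 3 * (A * max (F.ν 0 * F.l 0 ^ 2) 1) * (3 * (A * max (F.ν 0 * F.l 0 * F.l 1) 1)) *
        (3 * (A * F.ν 0 * F.l 0 * F.l 2)) * (3 * (A * F.ν 0 * F.l 1 * F.l 1)) *
        (3 * (A * F.ν 0 * F.l 1 * F.l 2)) * (3 * (A * F.ν 0 * F.l 2 * F.l 2)) *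
        (3 * (A * F.ν 1 * F.l 0 * F.l 0) * (3 * (A * F.ν 1 * F.l 0 * F.l 1)) *
          (3 * (A * F.ν 1 * F.l 0 * F.l 2)) * (3 * (A * F.ν 1 * F.l 1 * F.l 1)) *
          (3 * (A * F.ν 1 * F.l 1 * F.l 2)) * (3 * (A * F.ν 1 * F.l 2 * F.l 2))) := by
        gcongr
    _ = _ := by ring

end FA.QuarticCount
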