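import Fermat.Agent.QuarticCount.Count

/-!
# The estimate of one dyadic range

The points of the box, divided by the number of changes, are `O (|d|)` with a saving in every
ratio, so the fields in one dyadic range are a geometrically small multiple of `X`.
-/

set_option autoImplicit false
set_option linter.style.haveILetI false

noncomputable section

open NumberField Module Finset
open scoped Classical

namespace FA.QuarticCount

/-- **The estimate**: `G` is the size of the box over the changes and over `|d|`, `n = ν₀ν₁√|d|`. -/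
theorem saving {C l0 l1 l2 v0 v1 D : ℝ} (hC : 1 ≤ C) (h0 : 1 ≤ l0) (h01 : l0 ≤ l1)
    (h12 : l1 ≤ l2) (hv0 : 0 < v0) (hv : v0 ≤ v1) (hD : 1 ≤ D) (hn : v0 * v1 * D ≤ 2)
    (hvol : l0 * l1 * l2 ≤ C * D) (h02 : 1 ≤ 16 * v0 * l0 * l2) :
    (2 * (max (v0 * l0 ^ 2) 1 * max (v0 * l0 * l1) 1 *
      (v0 ^ 4 * v1 ^ 6 * (l0 ^ 5 * l1 ^ 7 * l2 ^ 8))) /
        (v0 * v1 * D ^ 3 * ((l2 / l0) ^ 2 * (v1 / v0)))) ^ 5 ≤
      512 * (2 ^ 10 * C ^ 8) ^ 5 / (l2 / l0 * (v1 / v0)) := by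
  have hl0 : 0 < l0 := by linarith
  have hl1 : 0 < l1 := by linarith
  have hl2 : 0 < l2 := by linarith
  have hv1 : 0 < v1 := by linarith
  have hD0 : 0 < D := by linarith
  set Λ := l0 * l1 * l2 / D
  have hΛ : Λ ≤ C := (div_le_iff₀ hD0).2 hvol
  have hΛ0 : 0 < Λ := by simp only [Λ]; positivity
  set n := v0 * v1 * D
  have hn0 : 0 < n := by positivity
  set T := l2 / l0 * (v1 / v0)
  have hT : 1 ≤ T := one_le_mul_of_one_le_of_one_le
    ((one_le_div hl0).2 (h01.trans h12)) ((one_le_div hv0).2 hv)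
  set K := 2 ^ 10 * C ^ 8 with hK
  have hK0 : 0 < K := by positivity
  have fin : ∀ g t : ℝ, 0 ≤ g → 1 ≤ t → g ≤ K / t → t ^ 5 * 512 ≥ T →
      g ^ 5 ≤ 512 * K ^ 5 / T := by
    intro g t hg ht h hle
    refine (pow_le_pow_left₀ hg h 5).trans ?_
    rw [div_pow, div_le_div_iff₀ (by positivity) (by positivity)]
    nlinarith [mul_le_mul_of_nonneg_left hle (pow_nonneg hK0.le 5)]
  have hself : ∀ t : ℝ, 1 ≤ t → t ≤ t ^ 5 * 512 := fun t ht => by
    nlinarith [le_self_pow₀ ht (show 5 ≠ 0 by norm_num)]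
  rcases le_or_gt 1 (v0 * l0 ^ 2) with hp | hp
  · have hq : 1 ≤ v0 * l0 * l1 := hp.trans (by nlinarith [mul_pos hv0 hl0])
    rw [max_eq_left hp, max_eq_left hq]
    have e : 2 * (v0 * l0 ^ 2 * (v0 * l0 * l1) * (v0 ^ 4 * v1 ^ 6 * (l0 ^ 5 * l1 ^ 7 * l2 ^ 8))) /
        (v0 * v1 * D ^ 3 * ((l2 / l0) ^ 2 * (v1 / v0))) =
        2 * n ^ 5 * Λ ^ 8 / ((l2 / l0) * T) := by
      simp only [n, Λ, T]
      field_simp
    rw [e]
    refine fin _ T (by positivity) hT ?_ (hself T hT)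
    refine div_le_div₀ hK0.le ?_ (by linarith) (le_mul_of_one_le_left (by linarith)
      ((one_le_div hl0).2 (h01.trans h12)))
    calc 2 * n ^ 5 * Λ ^ 8 ≤ 2 * 2 ^ 5 * C ^ 8 := by gcongr
      _ ≤ K := by rw [hK]; nlinarith [pow_pos (show 0 < C by linarith) 8]
  rcases le_or_gt 1 (v0 * l0 * l1) with hq | hq
  · rw [max_eq_right hp.le, max_eq_left hq]
    have e : 2 * (1 * (v0 * l0 * l1) * (v0 ^ 4 * v1 ^ 6 * (l0 ^ 5 * l1 ^ 7 * l2 ^ 8))) /
        (v0 * v1 * D ^ 3 * ((l2 / l0) ^ 2 * (v1 / v0))) =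
        2 * n ^ 5 * Λ ^ 8 * 16 / (16 * (v1 * l2 ^ 2)) := by
      simp only [n, Λ]
      field_simp
    rw [e]
    refine fin _ T (by positivity) hT ?_ (hself T hT)
    refine div_le_div₀ hK0.le ?_ (by linarith) ?_
    · calc 2 * n ^ 5 * Λ ^ 8 * 16 ≤ 2 * 2 ^ 5 * C ^ 8 * 16 := by gcongr
        _ = K := by rw [hK]; ring
    · simp only [T]
      rw [div_mul_div_comm, div_le_iff₀ (by positivity)]
      nlinarith [mul_le_mul_of_nonneg_left h02 (show 0 ≤ v1 * l2 by positivity)]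
  rw [max_eq_right hp.le, max_eq_right hq.le]
  have e : 2 * (1 * 1 * (v0 ^ 4 * v1 ^ 6 * (l0 ^ 5 * l1 ^ 7 * l2 ^ 8))) /
      (v0 * v1 * D ^ 3 * ((l2 / l0) ^ 2 * (v1 / v0))) = 2 * n ^ 4 * Λ ^ 7 / l2 := by
    simp only [n, Λ]
    field_simp
  rw [e]
  refine fin _ l2 (by positivity) (by linarith) ?_ ?_
  · refine div_le_div_of_nonneg_right ?_ hl2.le
    calc 2 * n ^ 4 * Λ ^ 7 ≤ 2 * 2 ^ 4 * C ^ 8 := by
          gcongr ?_ * ?_
          · gcongr
          · exact (pow_le_pow_left₀ hΛ0.le hΛ 7).trans (pow_le_pow_right₀ hC (by norm_num))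
      _ ≤ K := by rw [hK]; nlinarith [pow_pos (show 0 < C by linarith) 8]
  · have hinv : 1 / v0 ≤ 16 * (l0 * l2) := by rw [div_le_iff₀ hv0]; linarith
    have h3 : v1 / v0 ≤ 2 * (16 * (l0 * l2)) ^ 2 := by
      rw [show v1 / v0 = v0 * v1 * (1 / v0) ^ 2 by field_simp]
      refine mul_le_mul ?_ (pow_le_pow_left₀ (by positivity) hinv 2) (by positivity) (by norm_num)
      exact (le_mul_of_one_le_right (by positivity) hD).trans hn
    calc T ≤ l2 / l0 * (2 * (16 * (l0 * l2)) ^ 2) := by simp only [T]; gcongr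
      _ = 512 * (l2 * l2 ^ 2) * l0 := by field_simp; ring
      _ ≤ 512 * (l2 * l2 ^ 2) * l2 := by gcongr; exact h01.trans h12
      _ ≤ l2 ^ 5 * 512 := by
          nlinarith [mul_nonneg (pow_nonneg hl2.le 4) (show 0 ≤ l2 - 1 by linarith)]

/-- Two members of one dyadic range. -/
theorem le_two_mul {a : ℕ} {x y : ℝ} (hx : x < 2 ^ (a + 1)) (hy : (2 : ℝ) ^ a ≤ y) :
    x ≤ 2 * y := by
  rw [pow_succ] at hx; linarith

variable {L : Type} [Field L] [NumberField L] {C : ℝ}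

/-- The excess of the covolume. -/
def Frame.excess (F : Frame L C) : ℝ := 2 / (F.ν 0 * F.ν 1 * Real.sqrt |(discr L : ℝ)|)

/-- The frame lies in the dyadic range of `k, a, e`. -/
def Frame.InRange (F : Frame L C) (X : ℝ) (k : ℕ) (a : Fin 3 → ℕ) (e : ℕ) : Prop :=
  (2 ^ k ≤ X / |(discr L : ℝ)| ∧ X / |(discr L : ℝ)| < 2 ^ (k + 1)) ∧
  (2 ^ a 0 ≤ F.l 1 / F.l 0 ∧ F.l 1 / F.l 0 < 2 ^ (a 0 + 1)) ∧
  (2 ^ a 1 ≤ F.l 2 / F.l 1 ∧ F.l 2 / F.l 1 < 2 ^ (a 1 + 1)) ∧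
  (2 ^ a 2 ≤ F.ν 1 / F.ν 0 ∧ F.ν 1 / F.ν 0 < 2 ^ (a 2 + 1)) ∧
  (2 ^ e ≤ F.excess ∧ F.excess < 2 ^ (e + 1))

theorem one_le_abs_discr : (1 : ℝ) ≤ |(discr L : ℝ)| := by
  exact_mod_cast Int.one_le_abs (discr_ne_zero L)

theorem Frame.one_le_excess (F : Frame L C) : 1 ≤ F.excess := by
  have := F.ν_pos; have := F.ν_pos' 1
  have : 0 < Real.sqrt |(discr L : ℝ)| := Real.sqrt_pos.2 (zero_lt_one.trans_le one_le_abs_discr)
  rw [Frame.excess, one_le_div (by positivity)]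
  exact F.ν_vol

theorem Frame.vol_le' (F : Frame L C) (hC : 1 ≤ C) :
    F.l 0 * F.l 1 * F.l 2 ≤ C * Real.sqrt |(discr L : ℝ)| := by
  have h0 := F.l_pos 0; have h1 := F.l_pos 1; have h2 := F.l_pos 2
  refine le_of_pow_le_pow_left₀ two_ne_zero (by positivity) (F.vol_le.trans ?_)
  rw [mul_pow, Real.sq_sqrt (abs_nonneg _)]
  exact mul_le_mul_of_nonneg_right (le_self_pow₀ hC two_ne_zero) (abs_nonneg _)

/-- **Comparable frames.** -/
theorem range_compare {L' : Type} [Field L'] [NumberField L'] (hC : 1 ≤ C) {F : Frame L C}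
    {G : Frame L' C} {X : ℝ} {k e : ℕ} {a : Fin 3 → ℕ} (hF : F.InRange X k a e)
    (hG : G.InRange X k a e) :
    (∀ i, F.l i ≤ 1536 * C * G.l i) ∧ (∀ s, F.ν s ≤ 6 * G.ν s) ∧
      (G.l 2 / G.l 0) ^ 2 * (G.ν 1 / G.ν 0) ≤
        32 * ((F.l 2 / F.l 0) ^ 2 * (F.ν 1 / F.ν 0)) := by
  obtain ⟨⟨k1, k2⟩, ⟨a1, a1'⟩, ⟨b1, b1'⟩, ⟨c1, c1'⟩, ⟨e1, e1'⟩⟩ := hF
  obtain ⟨⟨k3, k4⟩, ⟨a3, a3'⟩, ⟨b3, b3'⟩, ⟨c3, c3'⟩, ⟨e3, e3'⟩⟩ := hG
  have f0 := F.l_pos 0; have f1 := F.l_pos 1; have f2 := F.l_pos 2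
  have g0 := G.l_pos 0; have g1 := G.l_pos 1; have g2 := G.l_pos 2
  have fv := F.ν_pos; have fv' := F.ν_pos' 1; have gv := G.ν_pos; have gv' := G.ν_pos' 1
  have hd := one_le_abs_discr (L := L); have hd' := one_le_abs_discr (L := L')
  have hX : 0 < X := by
    have := lt_of_lt_of_le (pow_pos two_pos k) k1
    exact (div_pos_iff_of_pos_right (by linarith)).1 this
  set DF := Real.sqrt |(discr L : ℝ)| with hDF
  set DG := Real.sqrt |(discr L' : ℝ)| with hDG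
  have hF0 : 0 < DF := Real.sqrt_pos.2 (by linarith)
  have hG0 : 0 < DG := Real.sqrt_pos.2 (by linarith)
  have cmp : ∀ {d d' : ℝ}, 1 ≤ d → 1 ≤ d' → X / d' ≤ 2 * (X / d) →
      Real.sqrt d ≤ 2 * Real.sqrt d' := fun {d d'} h h' hh => by
    rw [← mul_div_assoc, div_le_div_iff₀ (by linarith) (by linarith)] at hh
    have : d ≤ 2 * d' := by
      nlinarith [le_of_mul_le_mul_left (show X * d ≤ X * (2 * d') by linarith) hX]
    calc Real.sqrt d ≤ Real.sqrt (4 * d') := Real.sqrt_le_sqrt (by linarith)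
      _ = _ := by
        rw [Real.sqrt_mul (by norm_num),
          show Real.sqrt 4 = 2 by rw [Real.sqrt_eq_iff_mul_self_eq_of_pos two_pos]; norm_num]
  have hDFG : DF ≤ 2 * DG := cmp hd hd' (le_two_mul k4 k1)
  have hDGF : DG ≤ 2 * DF := cmp hd' hd (le_two_mul k2 k3)
  -- the sizes of the triples
  have hΛ : F.l 0 * F.l 1 * F.l 2 ≤ 48 * C * (G.l 0 * G.l 1 * G.l 2) := by
    refine (F.vol_le' hC).trans ?_
    calc C * DF ≤ C * (2 * (24 * (G.l 0 * G.l 1 * G.l 2))) := by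
          refine mul_le_mul_of_nonneg_left (hDFG.trans ?_) (by linarith)
          exact mul_le_mul_of_nonneg_left G.covol_le two_pos.le
      _ = _ := by ring
  have t1 : G.l 1 / G.l 0 ≤ 2 * (F.l 1 / F.l 0) := le_two_mul a3' a1
  have t2 : G.l 2 / G.l 1 ≤ 2 * (F.l 2 / F.l 1) := le_two_mul b3' b1
  have t3 : G.ν 1 / G.ν 0 ≤ 2 * (F.ν 1 / F.ν 0) := le_two_mul c3' c1
  have s1 : F.l 1 / F.l 0 ≤ 2 * (G.l 1 / G.l 0) := le_two_mul a1' a3
  have s2 : F.l 2 / F.l 1 ≤ 2 * (G.l 2 / G.l 1) := le_two_mul b1' b3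
  have s3 : F.ν 1 / F.ν 0 ≤ 2 * (G.ν 1 / G.ν 0) := le_two_mul c1' c3
  have hl0 : F.l 0 ≤ 384 * C * G.l 0 := by
    refine le_of_pow_le_pow_left₀ (n := 3) (by norm_num) (by positivity) ?_
    set P := (G.l 1 / G.l 0) ^ 2 * (G.l 2 / G.l 1) with hPdef
    have hP : P ≤ 8 * ((F.l 1 / F.l 0) ^ 2 * (F.l 2 / F.l 1)) := by
      calc P ≤ (2 * (F.l 1 / F.l 0)) ^ 2 * (2 * (F.l 2 / F.l 1)) := by rw [hPdef]; gcongr
        _ = _ := by ring
    have eF : F.l 0 ^ 3 * ((F.l 1 / F.l 0) ^ 2 * (F.l 2 / F.l 1)) = F.l 0 * F.l 1 * F.l 2 := by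
      field_simp
    have eG : G.l 0 ^ 3 * P = G.l 0 * G.l 1 * G.l 2 := by rw [hPdef]; field_simp
    have h3 : F.l 0 ^ 3 * P ≤ (384 * C * G.l 0 ^ 3) * P := by
      calc _ ≤ F.l 0 ^ 3 * (8 * ((F.l 1 / F.l 0) ^ 2 * (F.l 2 / F.l 1))) := by gcongr
        _ = 8 * (F.l 0 * F.l 1 * F.l 2) := by rw [← eF]; ring
        _ ≤ 8 * (48 * C * (G.l 0 * G.l 1 * G.l 2)) := by gcongr
        _ = _ := by rw [← eG]; ring
    refine (le_of_mul_le_mul_right h3 (by rw [hPdef]; positivity)).trans ?_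
    rw [mul_pow (384 * C)]
    exact mul_le_mul_of_nonneg_right (le_self_pow₀ (by linarith) (by norm_num)) (by positivity)
  have hl1 : F.l 1 ≤ 768 * C * G.l 1 := by
    calc F.l 1 = F.l 1 / F.l 0 * F.l 0 := by field_simp
      _ ≤ 2 * (G.l 1 / G.l 0) * (384 * C * G.l 0) := by gcongr
      _ = _ := by field_simp; ring
  have hl2 : F.l 2 ≤ 1536 * C * G.l 2 := by
    calc F.l 2 = F.l 2 / F.l 1 * F.l 1 := by field_simp
      _ ≤ 2 * (G.l 2 / G.l 1) * (768 * C * G.l 1) := by gcongr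
      _ = _ := by field_simp; ring
  -- the sizes of the pairs
  have hu : G.excess ≤ 2 * F.excess := le_two_mul e3' e1
  have hn : F.ν 0 * F.ν 1 ≤ 4 * (G.ν 0 * G.ν 1) := by
    have h1 : G.excess * DG ≤ 2 * F.excess * (2 * DF) :=
      mul_le_mul hu hDGF hG0.le (by have := F.one_le_excess; linarith)
    simp only [Frame.excess, ← hDF, ← hDG] at h1
    rw [show 2 / (G.ν 0 * G.ν 1 * DG) * DG = 2 / (G.ν 0 * G.ν 1) by field_simp,
      show 2 * (2 / (F.ν 0 * F.ν 1 * DF)) * (2 * DF) = 8 / (F.ν 0 * F.ν 1) by field_simp; ring,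
      div_le_div_iff₀ (by positivity) (by positivity)] at h1
    linarith
  have hv0 : F.ν 0 ≤ 3 * G.ν 0 := by
    refine le_of_pow_le_pow_left₀ (n := 2) (by norm_num) (by positivity) ?_
    have h3 : F.ν 0 ^ 2 * (G.ν 1 / G.ν 0) ≤ (8 * G.ν 0 ^ 2) * (G.ν 1 / G.ν 0) := by
      calc _ ≤ F.ν 0 ^ 2 * (2 * (F.ν 1 / F.ν 0)) := by gcongr
        _ = 2 * (F.ν 0 * F.ν 1) := by field_simp
        _ ≤ 2 * (4 * (G.ν 0 * G.ν 1)) := by gcongr
        _ = _ := by field_simp; ring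
    refine (le_of_mul_le_mul_right h3 (by positivity)).trans ?_
    nlinarith [sq_nonneg (G.ν 0)]
  have hv1 : F.ν 1 ≤ 6 * G.ν 1 := by
    calc F.ν 1 = F.ν 1 / F.ν 0 * F.ν 0 := by field_simp
      _ ≤ 2 * (G.ν 1 / G.ν 0) * (3 * G.ν 0) := by gcongr
      _ = _ := by field_simp; ring
  refine ⟨fun i => ?_, fun s => ?_, ?_⟩
  · fin_cases i
    · exact hl0.trans (by show 384 * C * G.l 0 ≤ 1536 * C * G.l 0; gcongr; norm_num)
    · exact hl1.trans (by show 768 * C * G.l 1 ≤ 1536 * C * G.l 1; gcongr; norm_num)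
    · exact hl2
  · fin_cases s
    · exact hv0.trans (by show 3 * G.ν 0 ≤ 6 * G.ν 0; linarith)
    · exact hv1
  · rw [show G.l 2 / G.l 0 = G.l 1 / G.l 0 * (G.l 2 / G.l 1) by field_simp,
      show F.l 2 / F.l 0 = F.l 1 / F.l 0 * (F.l 2 / F.l 1) by field_simp]
    calc (G.l 1 / G.l 0 * (G.l 2 / G.l 1)) ^ 2 * (G.ν 1 / G.ν 0)
        ≤ (2 * (F.l 1 / F.l 0) * (2 * (F.l 2 / F.l 1))) ^ 2 * (2 * (F.ν 1 / F.ν 0)) := by gcongr
      _ = _ := by ring

/-- **One dyadic range**: the fields are a geometrically small multiple of `X`. -/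
theorem exists_range_bound (hC : 1 ≤ C) : ∃ K : ℝ, 0 ≤ K ∧
    ∀ (ι : Type) (M : ι → Type) [∀ i, Field (M i)] [∀ i, NumberField (M i)]
      (F : ∀ i, Frame (M i) C), (∀ i j, Nonempty (M i ≃+* M j) → i = j) →
      ∀ (X : ℝ), 0 ≤ X → ∀ (k : ℕ) (a : Fin 3 → ℕ) (e : ℕ) (S : Finset ι),
        (∀ i ∈ S, (F i).InRange X k a e) →
        (S.card : ℝ) ≤ K * X * (1 / 2) ^ k * (1 / 2) ^ e *
          ((9 / 10) ^ a 0 * (9 / 10) ^ a 1 * (9 / 10) ^ a 2) := by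
  set A : ℝ := 288 * 6 * (1536 * C) ^ 2
  set K1 : ℝ := 512 * (2 ^ 10 * C ^ 8) ^ 5
  have hA : 16 ≤ A := by simp only [A]; nlinarith
  have hK1 : 1 ≤ K1 := by
    simp only [K1]
    nlinarith [one_le_pow₀ (n := 5)
      (one_le_mul_of_one_le_of_one_le (show (1 : ℝ) ≤ 2 ^ 10 by norm_num)
        (one_le_pow₀ (n := 8) hC))]
  refine ⟨32 * 24 * (3 ^ 12 * A ^ 12) * K1, by positivity,
    fun ι M _ _ F hne X hX k a e S hS => ?_⟩
  rcases S.eq_empty_or_nonempty with h | ⟨i₀, hi₀⟩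
  · rw [h, Finset.card_empty, Nat.cast_zero]
    positivity
  set G := F i₀ with hG
  have hr := hS i₀ hi₀
  have g0 := G.l_pos 0; have g1 := G.l_pos 1; have g2 := G.l_pos 2
  have gv := G.ν_pos; have gv' := G.ν_pos' 1
  obtain ⟨box, hbox, hcard⟩ := exists_box hA G
  have hmem : ∀ i ∈ S, ∀ b ∈ (F i).params, (F i).tuple b ∈ box := by
    intro i hi b hb
    obtain ⟨hl, hν, -⟩ := range_compare hC (hS i hi) hr
    refine hbox _ fun m => ?_
    have key : ∀ (s : Fin 2) (p q : Fin 3),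
        288 * (F i).ν s * (F i).l p * (F i).l q ≤ A * G.ν s * G.l p * G.l q := by
      intro s p q
      have := (F i).ν_pos' s; have := (F i).l_pos p; have := (F i).l_pos q
      have := G.ν_pos' s; have := G.l_pos p
      calc 288 * (F i).ν s * (F i).l p * (F i).l q
          ≤ 288 * (6 * G.ν s) * (1536 * C * G.l p) * (1536 * C * G.l q) := by
            gcongr
            exacts [hν s, hl p, hl q]
        _ = _ := by simp only [A]; ring
    exact ⟨((F i).tuple_le hb m).1.trans (key _ _ _), ((F i).tuple_le hb m).2.trans (key _ _ _)⟩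
  set W := (G.l 2 / G.l 0) ^ 2 * (G.ν 1 / G.ν 0) with hW
  have hW0 : 0 < W := by rw [hW]; positivity
  have h1 : (S.card : ℝ) * (W / 32) ≤ 24 * box.card := by
    refine le_trans ?_ (show ((∑ i ∈ S, (F i).params.card : ℕ) : ℝ) ≤ 24 * box.card by
      exact_mod_cast sum_params_le F hne S box hmem)
    rw [Nat.cast_sum, ← nsmul_eq_mul]
    refine Finset.card_nsmul_le_sum _ _ _ fun i hi => ?_
    refine le_trans ?_ (F i).card_params_ge
    rw [div_le_iff₀ (by norm_num), mul_comm]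
    exact (range_compare hC (hS i hi) hr).2.2
  set d := |(discr (M i₀) : ℝ)| with hd
  set D := Real.sqrt d with hD
  have hd1 : 1 ≤ d := one_le_abs_discr
  have hD1 : 1 ≤ D := Real.one_le_sqrt.2 hd1
  obtain ⟨⟨k1, k2⟩, ⟨a1, a1'⟩, ⟨b1, b1'⟩, ⟨c1, c1'⟩, ⟨e1, e1'⟩⟩ := hr
  set Φ := max (G.ν 0 * G.l 0 ^ 2) 1 * max (G.ν 0 * G.l 0 * G.l 1) 1 *
    (G.ν 0 ^ 4 * G.ν 1 ^ 6 * (G.l 0 ^ 5 * G.l 1 ^ 7 * G.l 2 ^ 8)) with hΦ
  have hΦ0 : 0 ≤ Φ := by rw [hΦ]; positivity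
  set g := 2 * Φ / (G.ν 0 * G.ν 1 * D ^ 3 * W) with hg
  have hsav : g ^ 5 ≤ K1 / (G.l 2 / G.l 0 * (G.ν 1 / G.ν 0)) :=
    saving hC G.one_le_l (G.l_mono (by decide)) (G.l_mono (by decide)) G.ν_pos G.ν_mono hD1
      G.ν_vol (G.vol_le' hC) G.one_le_02
  set r : ℝ := (9 / 10) ^ a 0 * (9 / 10) ^ a 1 * (9 / 10) ^ a 2 with hrdef
  have hgr : g ≤ K1 * r := by
    refine le_of_pow_le_pow_left₀ (n := 5) (by norm_num) (by positivity) (hsav.trans ?_)
    have hT : (2 : ℝ) ^ (a 0 + a 1 + a 2) ≤ G.l 2 / G.l 0 * (G.ν 1 / G.ν 0) := by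
      rw [show G.l 2 / G.l 0 = G.l 1 / G.l 0 * (G.l 2 / G.l 1) by field_simp, pow_add, pow_add]
      gcongr
    calc K1 / (G.l 2 / G.l 0 * (G.ν 1 / G.ν 0)) ≤ K1 / 2 ^ (a 0 + a 1 + a 2) := by gcongr
      _ = K1 * (1 / 2) ^ (a 0 + a 1 + a 2) := by rw [one_div_pow]; ring
      _ ≤ K1 ^ 5 * ((9 / 10 : ℝ) ^ 5) ^ (a 0 + a 1 + a 2) := by
          gcongr
          · exact le_self_pow₀ hK1 (by norm_num)
          · norm_num
      _ = _ := by rw [← pow_mul, mul_comm 5, pow_mul, hrdef, pow_add, pow_add]; ring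
  have hex : G.ν 0 * G.ν 1 * D = 2 / G.excess := by
    rw [Frame.excess, ← hd, ← hD]
    have : 0 < D := by linarith
    field_simp
  have hΦW : Φ / W ≤ K1 * r * (d * (1 / 2) ^ e) := by
    have e' : Φ / W = g * (d * (G.ν 0 * G.ν 1 * D / 2)) := by
      rw [hg, show d = D ^ 2 from (Real.sq_sqrt (by linarith)).symm]
      have : 0 < D := by linarith
      field_simp
    rw [e', hex]
    have hx := G.one_le_excess
    refine mul_le_mul hgr (mul_le_mul_of_nonneg_left ?_ (by linarith)) (by positivity)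
      (by positivity)
    rw [div_div, div_le_iff₀ (by positivity), one_div_pow, ← mul_div_right_comm,
      le_div_iff₀ (by positivity)]
    nlinarith
  have hdX : d ≤ X * (1 / 2) ^ k := by
    rw [one_div_pow, mul_one_div, le_div_iff₀ (by positivity)]
    rw [le_div_iff₀ (by linarith)] at k1
    linarith
  have h2 : (S.card : ℝ) ≤ 32 * 24 * (3 ^ 12 * A ^ 12) * (Φ / W) := by
    rw [show 32 * 24 * (3 ^ 12 * A ^ 12) * (Φ / W) =
      24 * (3 ^ 12 * A ^ 12 * Φ) / (W / 32) by field_simp, le_div_iff₀ (by positivity)]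
    exact h1.trans (mul_le_mul_of_nonneg_left hcard (by norm_num))
  refine h2.trans ?_
  refine (mul_le_mul_of_nonneg_left (hΦW.trans (mul_le_mul_of_nonneg_left
    (mul_le_mul_of_nonneg_right hdX (by positivity)) (by positivity))) (by positivity)).trans
      (le_of_eq ?_)
  ring

end FA.QuarticCount
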