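import Fermat.Agent.QuarticCount.Lattice

/-!
# The reduced pair

A basis of the lattice of the values gives a binary positive form of determinant three times the
squared covolume; its two minimal vectors give the functionals cutting out the pair of forms.
-/

set_option autoImplicit false
set_option linter.style.haveILetI false

noncomputable section

open NumberField Module Finset Matrix
open FA.Perfect (castVec ival succMin succMin_eq exists_minimaFamily prod_succMin_bounds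
  hermiteInv_le_hermite)
open FA.Reduction (quad)
open scoped ComplexConjugate Classical

namespace FA.QuarticCount

variable {L : Type} [Field L] [NumberField L]

/-- The squared length of the three differences. -/
def length3 (g : ℂ × ℂ) : ℝ := ‖g.1‖ ^ 2 + ‖g.2‖ ^ 2 + ‖g.2 - g.1‖ ^ 2

theorem herm_self (g : ℂ × ℂ) : herm g g = (length3 g : ℂ) := by
  simp only [herm, length3, Complex.ofReal_add, Complex.ofReal_pow, Complex.conj_mul']

theorem length3_pos {g : ℂ × ℂ} (h : g ≠ 0) : 0 < length3 g := by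
  refine lt_of_le_of_ne (by unfold length3; positivity) fun h0 => h ?_
  have h1 := sq_nonneg ‖g.1‖
  have h2 := sq_nonneg ‖g.2‖
  have h3 := sq_nonneg ‖g.2 - g.1‖
  unfold length3 at h0
  ext
  · exact norm_eq_zero.1 (pow_eq_zero_iff two_ne_zero |>.1 (by linarith))
  · exact norm_eq_zero.1 (pow_eq_zero_iff two_ne_zero |>.1 (by linarith))

/-- A basis of the lattice: all coordinates are integers. -/
theorem exists_basis (hk : ∀ k : IntermediateField ℚ L, finrank ℚ k ≠ 2)
    (e : Fin 4 ≃ (L →ₐ[ℚ] ℂ)) :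
    ∃ g ∈ valueLattice e, ∃ h ∈ valueLattice e, det2 g h ≠ 0 ∧
      Real.sqrt |(discr L : ℝ)| ≤ ‖det2 g h‖ ∧ ∀ z ∈ valueLattice e,
        (∃ i : ℤ, det2 g z = (i : ℂ) * det2 g h) ∧ ∃ j : ℤ, det2 h z = (j : ℂ) * det2 g h := by
  obtain ⟨δ, hδ2, hδ0, hδ⟩ := exists_delta e
  obtain ⟨x, y, hxy, -⟩ := exists_minor_ne_zero hk e
  have hex : ∃ k : ℕ, 0 < k ∧ ∃ g ∈ valueLattice e, ∃ h ∈ valueLattice e,
      det2 g h = (k : ℂ) * δ := by
    obtain ⟨n, hn⟩ := exists_det_mem hδ (psi_mem e x) (psi_mem e y)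
    have hn0 : n ≠ 0 := fun h => hxy (by rw [hn, h, Int.cast_zero, zero_mul])
    rcases lt_or_gt_of_ne hn0 with h | h
    · refine ⟨(-n).toNat, by omega, _, psi_mem e y, _, psi_mem e x, ?_⟩
      rw [det2_swap, hn, ← Int.cast_natCast, Int.toNat_of_nonneg (by omega)]
      push_cast; ring
    · refine ⟨n.toNat, by omega, _, psi_mem e x, _, psi_mem e y, ?_⟩
      rw [hn, ← Int.cast_natCast, Int.toNat_of_nonneg (by omega)]
  obtain ⟨hk0, g, hg, h, hh, hgh⟩ := Nat.find_spec hex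
  set k := Nat.find hex
  have hkC : (k : ℂ) ≠ 0 := Nat.cast_ne_zero.2 hk0.ne'
  have hne : det2 g h ≠ 0 := hgh ▸ mul_ne_zero hkC hδ0
  have small : ∀ a ∈ valueLattice e, ∀ b ∈ valueLattice e, ∀ r : ℤ,
      det2 a b = (r : ℂ) * δ → 0 ≤ r → r < k → r = 0 := by
    intro a ha b hb r hr h0 hlt
    by_contra hr0
    refine Nat.find_min hex (m := r.toNat) (by omega) ⟨by omega, a, ha, b, hb, ?_⟩
    rw [hr, ← Int.cast_natCast, Int.toNat_of_nonneg h0]
  refine ⟨g, hg, h, hh, hne, ?_, fun z hz => ⟨?_, ?_⟩⟩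
  · rw [hgh, norm_mul, norm_delta hδ2, Complex.norm_natCast]
    exact le_mul_of_one_le_left (Real.sqrt_nonneg _) (by exact_mod_cast hk0)
  · obtain ⟨a, ha⟩ := exists_det_mem hδ hg hz
    refine ⟨a / k, ?_⟩
    have hz' : det2 g (z - (a / (k : ℤ)) • h) = ((a % (k : ℤ) : ℤ) : ℂ) * δ := by
      rw [Int.emod_def, ← Int.cast_smul_eq_zsmul ℂ, sub_eq_add_neg, det2_add_right,
        det2_neg_right, det2_smul_right, ha, hgh]
      push_cast; ring
    have := small g hg _ (AddSubgroup.sub_mem _ hz (AddSubgroup.zsmul_mem _ hh _)) _ hz'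
      (Int.emod_nonneg _ (by omega)) (Int.emod_lt_of_pos _ (by omega))
    have hqC : ((a / (k : ℤ) : ℤ) : ℂ) * (k : ℂ) = a := by
      exact_mod_cast congrArg (Int.cast : ℤ → ℂ)
        (Int.ediv_mul_cancel (Int.dvd_of_emod_eq_zero this))
    rw [ha, hgh, ← mul_assoc, hqC]
  · obtain ⟨a, ha⟩ := exists_det_mem hδ hz hh
    refine ⟨-(a / k), ?_⟩
    have hz' : det2 (z - (a / (k : ℤ)) • g) h = ((a % (k : ℤ) : ℤ) : ℂ) * δ := by
      rw [Int.emod_def, ← Int.cast_smul_eq_zsmul ℂ, sub_eq_add_neg, det2_add_left,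
        ← neg_smul, det2_smul_left, ha, hgh]
      push_cast; ring
    have := small _ (AddSubgroup.sub_mem _ hz (AddSubgroup.zsmul_mem _ hg _)) h hh _ hz'
      (Int.emod_nonneg _ (by omega)) (Int.emod_lt_of_pos _ (by omega))
    have hqC : ((a / (k : ℤ) : ℤ) : ℂ) * (k : ℂ) = a := by
      exact_mod_cast congrArg (Int.cast : ℤ → ℂ)
        (Int.ediv_mul_cancel (Int.dvd_of_emod_eq_zero this))
    rw [det2_swap, ha, hgh, Int.cast_neg]
    linear_combination δ * hqC

/-- **The reduced pair.** -/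
theorem exists_reduced_pair (hk : ∀ k : IntermediateField ℚ L, finrank ℚ k ≠ 2)
    (e : Fin 4 ≃ (L →ₐ[ℚ] ℂ)) :
    ∃ (g : Fin 2 → ℂ × ℂ) (δ₀ : ℂ) (ν : Fin 2 → ℝ), δ₀ ≠ 0 ∧ det2 (g 0) (g 1) ≠ 0 ∧
      ((g 0).1 ≠ 0 ∧ (g 0).2 ≠ 0 ∧ (g 0).1 ≠ (g 0).2) ∧
      (∀ s (x y : 𝓞 L),
        ∃ n : ℤ, det2 (g s) (beta (emb e (x : L)) (emb e (y : L))) = (n : ℂ) * δ₀) ∧
      (∀ s, ‖(g s).1‖ ≤ ν s * ‖δ₀‖ ∧ ‖(g s).2‖ ≤ ν s * ‖δ₀‖) ∧
      0 < ν 0 ∧ ν 0 ≤ ν 1 ∧ ν 0 * ν 1 * Real.sqrt |(discr L : ℝ)| ≤ 2 := by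
  obtain ⟨g, hg, h, hh, hne, hvol, hcoord⟩ := exists_basis hk e
  set H := (herm g h).re with hH
  have hgh : herm g h = (H : ℂ) :=
    (Complex.conj_eq_iff_re.1 (herm_real_mem hg hh)).symm
  have hhg : herm h g = (H : ℂ) := by
    rw [← hgh, ← herm_real_mem hg hh]
    simp only [herm, map_add, map_sub, map_mul, Complex.conj_conj]
    ring
  set G : Matrix (Fin 2) (Fin 2) ℝ := !![length3 g, H; H, length3 h] with hG
  have hdet : G.det = 3 * ‖det2 g h‖ ^ 2 := by
    refine Complex.ofReal_injective ?_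
    rw [hG, Matrix.det_fin_two_of]
    push_cast
    rw [← herm_self, ← herm_self, ← Complex.conj_mul', ← herm_lagrange, hgh, hhg]
  have hsym : G.IsHermitian := by
    refine Matrix.ext fun i j => ?_
    fin_cases i <;> fin_cases j <;> simp [hG]
  have hquad : ∀ a b : ℝ, quad G ![a, b] =
      length3 ((a : ℂ) • g + (b : ℂ) • h) := fun a b => by
    refine Complex.ofReal_injective ?_
    rw [← herm_self]
    have e : herm ((a : ℂ) • g + (b : ℂ) • h) ((a : ℂ) • g + (b : ℂ) • h) =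
        (a : ℂ) ^ 2 * herm g g + (a : ℂ) * b * (herm g h + herm h g) +
          (b : ℂ) ^ 2 * herm h h := by
      simp only [herm, Prod.fst_add, Prod.snd_add, Prod.smul_fst, Prod.smul_snd, smul_eq_mul,
        map_add, map_sub, map_mul, Complex.conj_ofReal]
      ring
    rw [e, herm_self, herm_self, hgh, hhg]
    simp [quad, hG, Matrix.mulVec, dotProduct, Fin.sum_univ_two]
    ring
  have hli : ∀ a b : ℂ, a • g + b • h = 0 → a = 0 ∧ b = 0 := fun a b h0 => by
    have h1 := congrArg (fun z => det2 g z) h0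
    have h2 := congrArg (fun z => det2 h z) h0
    simp only [det2_add_right, det2_smul_right, det2_zero_right] at h1 h2
    simp only [det2] at h1 h2
    constructor
    · exact (mul_eq_zero.1 (show a * det2 g h = 0 by
        simp only [det2]; linear_combination -h2)).resolve_right hne
    · exact (mul_eq_zero.1 (show b * det2 g h = 0 by
        simp only [det2]; linear_combination h1)).resolve_right hne
  have hpos : G.PosDef := by
    refine Matrix.PosDef.of_dotProduct_mulVec_pos hsym fun x hx => ?_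
    rw [star_trivial]
    show 0 < quad G x
    rw [show x = ![x 0, x 1] from funext fun i => by fin_cases i <;> rfl, hquad]
    refine length3_pos fun h0 => hx ?_
    obtain ⟨e0, e1⟩ := hli _ _ h0
    funext i
    fin_cases i
    · simpa using e0
    · simpa using e1
  obtain ⟨v, hv⟩ := exists_minimaFamily hpos
  set g' : Fin 2 → ℂ × ℂ := fun s => v s 0 • g + v s 1 • h with hg'
  have hmem : ∀ s, g' s ∈ valueLattice e := fun s =>
    AddSubgroup.add_mem _ (AddSubgroup.zsmul_mem _ hg _) (AddSubgroup.zsmul_mem _ hh _)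
  have hcast : ∀ s, g' s = ((v s 0 : ℝ) : ℂ) • g + ((v s 1 : ℝ) : ℂ) • h := fun s => by
    simp only [hg', Complex.ofReal_intCast, Int.cast_smul_eq_zsmul]
  have hlen : ∀ s, ival G (v s) = length3 (g' s) := fun s => by
    rw [hcast, ← hquad]
    exact congrArg (quad G) (funext fun i => by fin_cases i <;> rfl)
  have hvdet : v 0 0 * v 1 1 - v 0 1 * v 1 0 ≠ 0 := by
    intro h0
    have := Fintype.linearIndependent_iff.1 hv.1 ![(v 1 1 : ℝ), -(v 0 1 : ℝ)] (by
      have h0' : (v 0 0 : ℝ) * v 1 1 - v 0 1 * v 1 0 = 0 := by exact_mod_cast h0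
      funext i
      fin_cases i <;> simp [Fin.sum_univ_two, castVec]
      · linear_combination h0'
      · ring)
    have e1 : v 1 1 = 0 := by simpa using this 0
    have e2 : v 0 1 = 0 := by simpa using this 1
    have := Fintype.linearIndependent_iff.1 hv.1 ![(v 1 0 : ℝ), -(v 0 0 : ℝ)] (by
      funext i
      fin_cases i <;> simp [Fin.sum_univ_two, castVec, e1, e2]
      ring)
    exact hv.1.ne_zero 1 (funext fun i => by
      fin_cases i
      · simpa [castVec] using this 0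
      · simp [castVec, e1])
  have hdet' : det2 (g' 0) (g' 1) =
      ((v 0 0 * v 1 1 - v 0 1 * v 1 0 : ℤ) : ℂ) * det2 g h := by
    rw [hcast, hcast]
    simp only [det2, Prod.fst_add, Prod.snd_add, Prod.smul_fst, Prod.smul_snd, smul_eq_mul,
      Complex.ofReal_intCast]
    push_cast
    ring
  have hne' : det2 (g' 0) (g' 1) ≠ 0 := hdet' ▸ mul_ne_zero (Int.cast_ne_zero.2 hvdet) hne
  have hδpos : 0 < ‖det2 g h‖ := norm_pos_iff.2 hne
  have hg0 : g' 0 ≠ 0 := fun h0 => hne' (by simp [h0, det2])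
  refine ⟨g', det2 g h, fun s => Real.sqrt (ival G (v s)) / ‖det2 g h‖, hne, hne',
    nondegenerate hk e (hmem 0) hg0, fun s x y => ?_, fun s => ?_, ?_, ?_, ?_⟩
  · obtain ⟨⟨i, hi⟩, ⟨j, hj⟩⟩ := hcoord _ (beta_mem e x y)
    refine ⟨v s 0 * i + v s 1 * j, ?_⟩
    rw [hcast, det2_add_left, det2_smul_left, det2_smul_left, hi, hj, Complex.ofReal_intCast,
      Complex.ofReal_intCast]
    push_cast
    ring
  · simp only [div_mul_cancel₀ _ hδpos.ne', hlen]
    constructor <;> refine Real.le_sqrt_of_sq_le ?_ <;> unfold length3 <;>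
      nlinarith [sq_nonneg ‖(g' s).1‖, sq_nonneg ‖(g' s).2‖, sq_nonneg ‖(g' s).2 - (g' s).1‖]
  · exact div_pos (Real.sqrt_pos.2 (hlen 0 ▸ length3_pos hg0)) hδpos
  · exact div_le_div_of_nonneg_right (Real.sqrt_le_sqrt (hv.2.1 (Fin.zero_le 1))) hδpos.le
  · have h2 := (prod_succMin_bounds hpos fun _ hQ => hermiteInv_le_hermite hQ).2
    simp only [succMin_eq hv, hdet] at h2
    have h43 : Real.sqrt ((4 / 3 : ℝ) ^ (1 * (1 + 1))) = 4 / 3 := by
      rw [show (1 * (1 + 1)) = 2 from rfl, Real.sqrt_sq (by norm_num)]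
    rw [h43] at h2
    have h4 : Real.sqrt (ival G (v 0)) * Real.sqrt (ival G (v 1)) ≤ 2 * ‖det2 g h‖ := by
      rw [← Real.sqrt_mul (by rw [hlen]; exact (length3_pos hg0).le),
        Real.sqrt_le_left (by positivity)]
      have h5 : ival G (v 0) * ival G (v 1) ≤ 4 / 3 * (3 * ‖det2 g h‖ ^ 2) :=
        le_of_eq_of_le (Fin.prod_univ_two fun x => ival G (v x)).symm h2
      linarith
    have hq : Real.sqrt (ival G (v 0)) / ‖det2 g h‖ * (Real.sqrt (ival G (v 1)) / ‖det2 g h‖) *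
        ‖det2 g h‖ ≤ 2 := by
      rw [show Real.sqrt (ival G (v 0)) / ‖det2 g h‖ * (Real.sqrt (ival G (v 1)) / ‖det2 g h‖) *
        ‖det2 g h‖ = Real.sqrt (ival G (v 0)) * Real.sqrt (ival G (v 1)) / ‖det2 g h‖ by
          field_simp, div_le_iff₀ hδpos]
      exact h4
    exact (mul_le_mul_of_nonneg_left hvol (by positivity)).trans hq

end FA.QuarticCount
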