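import Fermat.Agent.QuarticCount.Minima
import Fermat.Agent.QuarticCount.Pair

/-!
# Frames and their forms

A frame is a reduced triple of integers with a reduced pair. Its unipotent changes have twelve
integral coefficients of controlled size; twelve coefficients come from at most `24` changes, all
in one field, and only two of them can be forced to vanish.
-/

set_option autoImplicit false
set_option linter.style.haveILetI false

noncomputable section

open NumberField Module Finset Matrix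
open scoped ComplexConjugate IntermediateField Classical

namespace FA.QuarticCount

theorem beta_add_right (a b c : Fin 4 → ℂ) : beta a (b + c) = beta a b + beta a c := by
  ext <;> simp [beta] <;> ring

theorem beta_smul_right (a b : Fin 4 → ℂ) (t : ℂ) : beta a (t • b) = t • beta a b := by
  ext <;> simp [beta] <;> ring

theorem beta_self (a : Fin 4 → ℂ) : beta a a = (2 : ℂ) • psi a := by
  ext <;> simp [psi, beta] <;> ring

variable {L : Type} [Field L] [NumberField L]

/-- Without a quadratic subfield an irrational element has four conjugates. -/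
theorem conj_injective (hk : ∀ k : IntermediateField ℚ L, finrank ℚ k ≠ 2)
    (e : Fin 4 ≃ (L →ₐ[ℚ] ℂ)) {x : L} (hx : ∀ q : ℚ, (q : L) ≠ x) :
    Function.Injective fun j => e j x := by
  have h4 := finrank_eq_four e
  have hdvd : finrank ℚ ℚ⟮x⟯ ∣ 4 := h4 ▸ ⟨_, (Module.finrank_mul_finrank ℚ ℚ⟮x⟯ L).symm⟩
  have hne1 : finrank ℚ ℚ⟮x⟯ ≠ 1 := fun h => by
    rw [IntermediateField.finrank_adjoin_simple_eq_one_iff, IntermediateField.mem_bot] at h
    obtain ⟨q, hq⟩ := h
    exact hx q (by rw [← hq, eq_ratCast])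
  have htop : ℚ⟮x⟯ = ⊤ := IntermediateField.eq_of_le_of_finrank_eq le_top (by
    have h := Nat.le_of_dvd (by norm_num) hdvd
    have h' := hk ℚ⟮x⟯
    rw [IntermediateField.finrank_top', h4]
    interval_cases hF : finrank ℚ ℚ⟮x⟯ <;> simp_all
    )
  intro i j h
  refine e.injective (AlgHom.ext_of_adjoin_eq_top (s := {x}) ?_ (by simpa using h))
  rw [← IntermediateField.adjoin_simple_toSubalgebra_of_isAlgebraic
    (Algebra.IsAlgebraic.isAlgebraic x), htop, IntermediateField.top_toSubalgebra]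

/-- A reduced triple with a reduced pair. -/
structure Frame (L : Type) [Field L] [NumberField L] (C : ℝ) where
  /-- The numbering of the embeddings. -/
  e : Fin 4 ≃ (L →ₐ[ℚ] ℂ)
  /-- The triple. -/
  x : Fin 3 → 𝓞 L
  /-- The pair. -/
  g : Fin 2 → ℂ × ℂ
  /-- The covolume. -/
  δ₀ : ℂ
  /-- The sizes of the triple. -/
  l : Fin 3 → ℝ
  /-- The sizes of the pair. -/
  ν : Fin 2 → ℝ
  prim : ∀ k : IntermediateField ℚ L, finrank ℚ k ≠ 2
  indep : LinearIndependent ℚ (Fin.cons 1 (fun i => (x i : L)) : Fin 4 → L)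
  δ₀_ne : δ₀ ≠ 0
  g_indep : det2 (g 0) (g 1) ≠ 0
  g_nondeg : (g 0).1 ≠ 0 ∧ (g 0).2 ≠ 0 ∧ (g 0).1 ≠ (g 0).2
  integral : ∀ s (a b : 𝓞 L),
    ∃ n : ℤ, det2 (g s) (beta (emb e (a : L)) (emb e (b : L))) = (n : ℂ) * δ₀
  x_le : ∀ i j, ‖e j (x i : L)‖ ≤ l i
  one_le_l : 1 ≤ l 0
  l_mono : Monotone l
  vol_le : (l 0 * l 1 * l 2) ^ 2 ≤ C * |(discr L : ℝ)|
  g_le : ∀ s, ‖(g s).1‖ ≤ ν s * ‖δ₀‖ ∧ ‖(g s).2‖ ≤ ν s * ‖δ₀‖
  ν_pos : 0 < ν 0
  ν_mono : ν 0 ≤ ν 1
  ν_vol : ν 0 * ν 1 * Real.sqrt |(discr L : ℝ)| ≤ 2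

/-- Every field without quadratic subfield has a frame. -/
theorem exists_frame : ∃ C : ℝ, 1 ≤ C ∧ ∀ (L : Type) [Field L] [NumberField L],
    finrank ℚ L = 4 → (∀ k : IntermediateField ℚ L, finrank ℚ k ≠ 2) →
      Nonempty (Frame L C) := by
  obtain ⟨C, hC, htri⟩ := exists_reduced_triple
  refine ⟨C, hC, fun L _ _ hn hk => ?_⟩
  obtain ⟨e⟩ := FA.QuarticResolvent.exists_embeddings L hn
  obtain ⟨x, l, hx, hxl, hl, hlm, hv⟩ := htri L hn e
  obtain ⟨g, δ₀, ν, h1, h2, h3, h4, h5, h6, h7, h8⟩ := exists_reduced_pair hk e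
  exact ⟨⟨e, x, g, δ₀, l, ν, hk, hx, h1, h2, h3, h4, hxl, hl, hlm, hv, h5, h6, h7, h8⟩⟩

namespace Frame

variable {C : ℝ} (F : Frame L C)

theorem l_pos (i : Fin 3) : 0 < F.l i :=
  zero_lt_one.trans_le (F.one_le_l.trans (F.l_mono (Fin.zero_le i)))

theorem ν_pos' (s : Fin 2) : 0 < F.ν s := by
  fin_cases s
  · exact F.ν_pos
  · exact F.ν_pos.trans_le F.ν_mono

/-- The covolume is at most the product of the sizes. -/
theorem covol_le : Real.sqrt |(discr L : ℝ)| ≤ 24 * (F.l 0 * F.l 1 * F.l 2) := by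
  obtain ⟨δ, hδ2, -, hδ⟩ := exists_delta F.e
  obtain ⟨n, hn⟩ := hδ ![1, F.x 0, F.x 1, F.x 2]
  have hrow : (fun k => emb F.e ((![1, F.x 0, F.x 1, F.x 2] : Fin 4 → 𝓞 L) k : L)) =
      fun k => emb F.e ((Fin.cons 1 (fun i => (F.x i : L)) : Fin 4 → L) k) := by
    funext k; fin_cases k <;> simp <;> rfl
  have hn0 : n ≠ 0 := fun h => by
    rw [h, Int.cast_zero, zero_mul, hrow] at hn
    have := (Matrix.linearIndependent_rows_iff_isUnit.1 (linearIndependent_emb F.e F.indep :
      LinearIndependent ℂ (Matrix.of fun k => emb F.e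
        ((Fin.cons 1 (fun i => (F.x i : L)) : Fin 4 → L) k)).row))
    exact ((Matrix.isUnit_iff_isUnit_det _).1 this).ne_zero hn
  have h1 : ‖δ‖ ≤ ‖(n : ℂ) * δ‖ := by
    rw [norm_mul, Complex.norm_intCast]
    exact le_mul_of_one_le_left (norm_nonneg _) (by exact_mod_cast Int.one_le_abs hn0)
  rw [← norm_delta hδ2]
  refine h1.trans ?_
  rw [← hn, hrow, ← Matrix.det_transpose, Matrix.det_apply']
  refine (norm_sum_le _ _).trans ((Finset.sum_le_card_nsmul _ _ (F.l 0 * F.l 1 * F.l 2)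
    fun σ _ => ?_).trans (by simp [Fintype.card_perm, Nat.factorial]))
  rw [norm_mul, norm_prod, Fin.prod_univ_four]
  simp only [Matrix.transpose_apply, Matrix.of_apply, emb]
  rcases Int.units_eq_one_or (Equiv.Perm.sign σ) with h | h <;> simp [h] <;>
    exact mul_le_mul (mul_le_mul (F.x_le 0 _) (F.x_le 1 _) (norm_nonneg _) (F.l_pos 0).le)
      (F.x_le 2 _) (norm_nonneg _) (mul_nonneg (F.l_pos 0).le (F.l_pos 1).le)

/-- The coefficient of the form `s` at two integers. -/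
def coef (s : Fin 2) (a b : 𝓞 L) : ℤ := (F.integral s a b).choose

theorem coef_spec (s : Fin 2) (a b : 𝓞 L) :
    det2 (F.g s) (beta (emb F.e (a : L)) (emb F.e (b : L))) = (F.coef s a b : ℂ) * F.δ₀ :=
  (F.integral s a b).choose_spec

theorem coef_le (s : Fin 2) {a b : 𝓞 L} {la lb : ℝ} (ha : ∀ j, ‖F.e j (a : L)‖ ≤ la)
    (hb : ∀ j, ‖F.e j (b : L)‖ ≤ lb) : (|F.coef s a b| : ℝ) ≤ 16 * F.ν s * la * lb := by
  have hla : 0 ≤ la := (norm_nonneg _).trans (ha 0)
  have hlb : 0 ≤ lb := (norm_nonneg _).trans (hb 0)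
  have key : ∀ p q r t p' q' r' t' : Fin 4,
      ‖(emb F.e (a : L) p - emb F.e (a : L) q) * (emb F.e (b : L) r - emb F.e (b : L) t) +
        (emb F.e (b : L) p' - emb F.e (b : L) q') *
          (emb F.e (a : L) r' - emb F.e (a : L) t')‖ ≤ 8 * la * lb := by
    intro p q r t p' q' r' t'
    refine (norm_add_le _ _).trans ?_
    rw [norm_mul, norm_mul]
    have h1 := fun i j => (norm_sub_le (F.e i (a : L)) (F.e j (a : L))).trans
      (add_le_add (ha i) (ha j))
    have h2 := fun i j => (norm_sub_le (F.e i (b : L)) (F.e j (b : L))).trans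
      (add_le_add (hb i) (hb j))
    refine le_trans (add_le_add (mul_le_mul (h1 _ _) (h2 _ _) (norm_nonneg _) (by linarith))
      (mul_le_mul (h2 _ _) (h1 _ _) (norm_nonneg _) (by linarith))) (le_of_eq (by ring))
  set β := beta (emb F.e (a : L)) (emb F.e (b : L))
  have hd : (|F.coef s a b| : ℝ) * ‖F.δ₀‖ ≤ 16 * F.ν s * la * lb * ‖F.δ₀‖ := by
    rw [← Complex.norm_intCast, ← norm_mul, ← F.coef_spec]
    refine (norm_sub_le _ _).trans ?_
    rw [norm_mul, norm_mul]
    refine le_trans (add_le_add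
      (mul_le_mul (F.g_le s).1 (key _ _ _ _ _ _ _ _) (norm_nonneg _)
        ((norm_nonneg _).trans (F.g_le s).1))
      (mul_le_mul (F.g_le s).2 (key _ _ _ _ _ _ _ _) (norm_nonneg _)
        ((norm_nonneg _).trans (F.g_le s).2))) (le_of_eq (by ring))
  exact le_of_mul_le_mul_right hd (norm_pos_iff.2 F.δ₀_ne)

theorem one_le_of_coef (s : Fin 2) {i j : Fin 3} (h : F.coef s (F.x i) (F.x j) ≠ 0) :
    1 ≤ 16 * F.ν s * F.l i * F.l j :=
  le_trans (by exact_mod_cast Int.one_le_abs h) (F.coef_le s (F.x_le i) (F.x_le j))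

/-- **No kernel**: an element orthogonal to a whole triple is constant. -/
theorem const_of_forms {y : Fin 3 → L}
    (hy : LinearIndependent ℚ (Fin.cons 1 y : Fin 4 → L)) {a : Fin 4 → ℂ}
    (ha : ∀ i, det2 (F.g 0) (beta a (emb F.e (y i))) = 0) : a = a 3 • 1 := by
  obtain ⟨h1, h2, h3⟩ := F.g_nondeg
  funext j
  rw [Pi.smul_apply, Pi.one_apply, smul_eq_mul, mul_one]
  refine kernel_const h1 h2 h3 (fun z => ?_) j
  let B := basisOfLinearIndependentOfCardEqFinrank (linearIndependent_emb F.e hy)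
    (by rw [Fintype.card_fin, Module.finrank_fin_fun])
  rw [← B.sum_repr z, Fin.sum_univ_succ, Fin.sum_univ_three]
  simp only [B, coe_basisOfLinearIndependentOfCardEqFinrank, Fin.cons_zero, Fin.cons_succ,
    emb_one, beta_add_right, beta_smul_right, beta_one_right, det2_add_right, det2_smul_right,
    det2_zero_right, ha]
  ring

theorem exists_first_ne {y : Fin 3 → 𝓞 L}
    (hy : LinearIndependent ℚ (Fin.cons 1 (fun i => (y i : L)) : Fin 4 → L)) :
    ∃ i, F.coef 0 (y 0) (y i) ≠ 0 := by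
  by_contra! h
  have hc := F.const_of_forms hy (a := emb F.e (y 0 : L)) fun i => by
    rw [F.coef_spec, h i, Int.cast_zero, zero_mul]
  have h' := Fintype.linearIndependent_iff.1 (linearIndependent_emb F.e hy)
    ![-(emb F.e (y 0 : L) 3), 1, 0, 0] (by
      simp only [Fin.sum_univ_succ, Finset.univ_eq_empty, Finset.sum_empty]
      simp [emb_one]
      conv_lhs => arg 2; rw [hc]
      simp) 1
  simp at h'

/-- The entry `(0, 2)` is large. -/
theorem one_le_02 : 1 ≤ 16 * F.ν 0 * F.l 0 * F.l 2 := by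
  obtain ⟨i, hi⟩ := F.exists_first_ne F.indep
  refine (F.one_le_of_coef 0 hi).trans ?_
  have := F.ν_pos; have := F.l_pos 0
  exact mul_le_mul_of_nonneg_left (F.l_mono (Fin.le_last i)) (by positivity)

/-- The entry `(1, 1)` is large. -/
theorem one_le_11 : 1 ≤ 16 * F.ν 0 * F.l 1 * F.l 1 := by
  have hν := F.ν_pos; have h0 := F.l_pos 0; have h1 := F.l_pos 1
  have h01 := F.l_mono (show (0 : Fin 3) ≤ 1 by decide)
  by_cases c00 : F.coef 0 (F.x 0) (F.x 0) = 0
  · by_cases c01 : F.coef 0 (F.x 0) (F.x 1) = 0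
    · by_cases c11 : F.coef 0 (F.x 1) (F.x 1) = 0
      · exfalso
        set u := emb F.e (F.x 0 : L) with hu
        set v := emb F.e (F.x 1 : L) with hv
        set w := emb F.e (F.x 2 : L) with hw
        set p := (F.coef 0 (F.x 0) (F.x 2) : ℂ)
        set q := (F.coef 0 (F.x 1) (F.x 2) : ℂ)
        have hdet : ∀ c : Fin 4 → ℂ, det2 (F.g 0) (beta (q • u + (-p) • v) c) =
            q * det2 (F.g 0) (beta u c) - p * det2 (F.g 0) (beta v c) := fun c => by
          simp only [beta_comm _ c, beta_add_right, beta_smul_right, det2_add_right,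
            det2_smul_right]
          ring
        have hc := F.const_of_forms F.indep (a := q • u + (-p) • v) fun i => by
          rw [hdet]
          fin_cases i
          · rw [beta_comm v]; simp [hu, hv, F.coef_spec, c00, c01]
          · simp [hu, hv, F.coef_spec, c01, c11]
          · simp [hu, hv, F.coef_spec, p, q]; ring
        have h' := Fintype.linearIndependent_iff.1 (linearIndependent_emb F.e F.indep)
          ![-((q • u + (-p) • v) 3), q, -p, 0] (by
            rw [Fin.sum_univ_four]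
            show -((q • u + (-p) • v) 3) • emb F.e 1 + q • u + (-p) • v + (0 : ℂ) • w = 0
            rw [emb_one, zero_smul, add_zero, add_assoc, hc]
            simp
            module)
        have hp : p = 0 := by simpa using h' 2
        have hq : q = 0 := by simpa using h' 1
        refine (F.exists_first_ne F.indep).elim fun i hi => ?_
        fin_cases i
        · exact hi c00
        · exact hi c01
        · exact hi (Int.cast_eq_zero.1 hp)
      · exact F.one_le_of_coef 0 c11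
    · refine (F.one_le_of_coef 0 c01).trans ?_
      gcongr
  · refine (F.one_le_of_coef 0 c00).trans ?_
    gcongr

/-- The entry `(0, 0)` of the second form is large unless that of the first is. -/
theorem one_le_00 : 1 ≤ 16 * F.ν 1 * F.l 0 * F.l 0 := by
  by_cases c0 : F.coef 0 (F.x 0) (F.x 0) = 0
  · refine F.one_le_of_coef 1 fun c1 => ?_
    have h0 : psi (emb F.e (F.x 0 : L)) = 0 := by
      have := eq_zero_of_det2 F.g_indep (z := beta (emb F.e (F.x 0 : L)) (emb F.e (F.x 0 : L)))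
        (by rw [F.coef_spec, c0, Int.cast_zero, zero_mul])
        (by rw [F.coef_spec, c1, Int.cast_zero, zero_mul])
      rw [beta_self] at this
      exact (smul_eq_zero.1 this).resolve_left two_ne_zero
    obtain ⟨k, t, s, hk⟩ := psi_eq_zero h0
    have hinj := conj_injective F.prim F.e (x := (F.x 0 : L)) fun q hq => by
      have := Fintype.linearIndependent_iff.1 F.indep ![-q, 1, 0, 0] (by
        simp only [Fin.sum_univ_succ, Finset.univ_eq_empty, Finset.sum_empty]
        simp [← hq, Rat.smul_def]) 1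
      simp at this
    have three : ∀ k : Fin 4, ∃ i j, i ≠ k ∧ j ≠ k ∧ i ≠ j := by decide
    obtain ⟨i, j, hi, hj, hij⟩ := three k
    refine hij (hinj ?_)
    show emb F.e (F.x 0 : L) i = emb F.e (F.x 0 : L) j
    rw [hk, hk, if_neg hi, if_neg hj]
  · refine (F.one_le_of_coef 0 c0).trans ?_
    have := F.l_pos 0
    gcongr
    exact F.ν_mono

/-- The changed triple. -/
def moved (a : ℕ × ℕ × ℕ × ℕ) : Fin 3 → 𝓞 L :=
  ![F.x 0, F.x 1 + (a.1 : 𝓞 L) * F.x 0,
    F.x 2 + (a.2.1 : 𝓞 L) * F.x 0 + (a.2.2.1 : 𝓞 L) * F.x 1]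

/-- The first index of a coefficient. -/
def fstIdx : Fin 6 → Fin 3 := ![0, 0, 0, 1, 1, 2]

/-- The second index of a coefficient. -/
def sndIdx : Fin 6 → Fin 3 := ![0, 1, 2, 1, 2, 2]

/-- The twelve coefficients after a change. -/
def tuple (a : ℕ × ℕ × ℕ × ℕ) (k : Fin 6) : ℤ × ℤ :=
  (F.coef 0 (F.moved a (fstIdx k)) (F.moved a (sndIdx k)),
    F.coef 1 (F.moved a (fstIdx k)) (F.moved a (sndIdx k)) +
      (a.2.2.2 : ℤ) * F.coef 0 (F.moved a (fstIdx k)) (F.moved a (sndIdx k)))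

/-- The allowed changes. -/
def params : Finset (ℕ × ℕ × ℕ × ℕ) :=
  range (⌊F.l 1 / F.l 0⌋₊ + 1) ×ˢ range (⌊F.l 2 / F.l 0⌋₊ + 1) ×ˢ
    range (⌊F.l 2 / F.l 1⌋₊ + 1) ×ˢ range (⌊F.ν 1 / F.ν 0⌋₊ + 1)

theorem card_params_ge :
    (F.l 2 / F.l 0) ^ 2 * (F.ν 1 / F.ν 0) ≤ (F.params.card : ℝ) := by
  have h0 := F.l_pos 0; have h1 := F.l_pos 1; have h2 := F.l_pos 2; have hν := F.ν_pos
  have hν1 := F.ν_pos' 1
  simp only [params, card_product, card_range, Nat.cast_mul, Nat.cast_add, Nat.cast_one]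
  calc (F.l 2 / F.l 0) ^ 2 * (F.ν 1 / F.ν 0)
      = F.l 1 / F.l 0 * (F.l 2 / F.l 0 * (F.l 2 / F.l 1 * (F.ν 1 / F.ν 0))) := by
        field_simp
    _ ≤ _ := by
        gcongr <;> exact (Nat.lt_floor_add_one _).le

/-- **The sizes of the coefficients.** -/
theorem tuple_le {a : ℕ × ℕ × ℕ × ℕ} (ha : a ∈ F.params) (k : Fin 6) :
    (|(F.tuple a k).1| : ℝ) ≤ 288 * F.ν 0 * F.l (fstIdx k) * F.l (sndIdx k) ∧
      (|(F.tuple a k).2| : ℝ) ≤ 288 * F.ν 1 * F.l (fstIdx k) * F.l (sndIdx k) := by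
  simp only [params, mem_product, mem_range, Nat.lt_succ_iff] at ha
  obtain ⟨ha1, ha2, ha3, ha4⟩ := ha
  have h0 := F.l_pos 0; have h1 := F.l_pos 1; have h2 := F.l_pos 2
  have hν := F.ν_pos; have hν1 := F.ν_pos' 1
  have hnonneg : ∀ i, 0 ≤ F.l i := fun i => (F.l_pos i).le
  have b1 : (a.1 : ℝ) * F.l 0 ≤ F.l 1 :=
    (le_div_iff₀ h0).1 ((Nat.le_floor_iff (by positivity)).1 ha1)
  have b2 : (a.2.1 : ℝ) * F.l 0 ≤ F.l 2 :=
    (le_div_iff₀ h0).1 ((Nat.le_floor_iff (by positivity)).1 ha2)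
  have b3 : (a.2.2.1 : ℝ) * F.l 1 ≤ F.l 2 :=
    (le_div_iff₀ h1).1 ((Nat.le_floor_iff (by positivity)).1 ha3)
  have b4 : (a.2.2.2 : ℝ) * F.ν 0 ≤ F.ν 1 :=
    (le_div_iff₀ hν).1 ((Nat.le_floor_iff (by positivity)).1 ha4)
  have nmul : ∀ (n : ℕ) (y : 𝓞 L) j, ‖F.e j (((n : 𝓞 L) * y : 𝓞 L) : L)‖ =
      (n : ℝ) * ‖F.e j (y : L)‖ := fun n y j => by
    rw [RingOfIntegers.coe_eq_algebraMap, map_mul, map_natCast, map_mul, map_natCast, norm_mul,
      Complex.norm_natCast]
  have hm : ∀ i j, ‖F.e j (F.moved a i : L)‖ ≤ 3 * F.l i := by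
    intro i j
    fin_cases i
    · exact (F.x_le 0 j).trans (by show F.l 0 ≤ 3 * F.l 0; linarith)
    · show ‖F.e j ((F.x 1 + (a.1 : 𝓞 L) * F.x 0 : 𝓞 L) : L)‖ ≤ 3 * F.l 1
      rw [RingOfIntegers.coe_eq_algebraMap, map_add, map_add]
      refine (norm_add_le _ _).trans ?_
      rw [nmul]
      linarith [F.x_le 1 j, mul_le_mul_of_nonneg_left (F.x_le 0 j) (Nat.cast_nonneg (α := ℝ) a.1)]
    · show ‖F.e j ((F.x 2 + (a.2.1 : 𝓞 L) * F.x 0 + (a.2.2.1 : 𝓞 L) * F.x 1 : 𝓞 L) : L)‖ ≤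
        3 * F.l 2
      rw [RingOfIntegers.coe_eq_algebraMap, map_add, map_add, map_add, map_add]
      refine (norm_add₃_le).trans ?_
      rw [nmul, nmul]
      linarith [F.x_le 2 j,
        mul_le_mul_of_nonneg_left (F.x_le 0 j) (Nat.cast_nonneg (α := ℝ) a.2.1),
        mul_le_mul_of_nonneg_left (F.x_le 1 j) (Nat.cast_nonneg (α := ℝ) a.2.2.1)]
  have hc := fun s => F.coef_le s (hm (fstIdx k)) (hm (sndIdx k))
  have hll : 0 ≤ F.l (fstIdx k) * F.l (sndIdx k) := mul_nonneg (hnonneg _) (hnonneg _)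
  refine ⟨(hc 0).trans ?_, ?_⟩
  · nlinarith [mul_nonneg hν.le hll]
  · simp only [tuple, Int.cast_add, Int.cast_mul, Int.cast_natCast]
    refine (abs_add_le _ _).trans ?_
    rw [abs_mul, Nat.abs_cast]
    refine (add_le_add (hc 1) (mul_le_mul_of_nonneg_left (hc 0) (Nat.cast_nonneg _))).trans ?_
    nlinarith [mul_le_mul_of_nonneg_right b4 hll]

theorem moved_indep (a : ℕ × ℕ × ℕ × ℕ) :
    LinearIndependent ℚ (Fin.cons 1 (fun i => (F.moved a i : L)) : Fin 4 → L) := by
  rw [Fintype.linearIndependent_iff]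
  intro c hc
  have h := Fintype.linearIndependent_iff.1 F.indep
    ![c 0, c 1 + a.1 * c 2 + a.2.1 * c 3, c 2 + a.2.2.1 * c 3, c 3] (by
      rw [← hc]
      simp [Fin.sum_univ_succ, moved, RingOfIntegers.coe_eq_algebraMap]
      ring_nf
      simp only [add_smul, mul_smul, Nat.cast_smul_eq_nsmul, nsmul_eq_mul]
      simp only [Rat.smul_def]
      ring)
  have e3 : c 3 = 0 := by simpa using h 3
  have e2 : c 2 = 0 := by simpa [e3] using h 2
  intro i
  fin_cases i
  · simpa using h 0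
  · simpa [e2, e3] using h 1
  · exact e2
  · exact e3

/-- The value of the first form at a sum. -/
theorem two_psi_sum (c : Fin 3 → ℂ) (v : Fin 3 → Fin 4 → ℂ) :
    (2 : ℂ) • psi (∑ i, c i • v i) = ∑ k, ((if fstIdx k = sndIdx k then 1 else 2) *
      (c (fstIdx k) * c (sndIdx k))) • beta (v (fstIdx k)) (v (sndIdx k)) := by
  ext <;> simp [psi, beta, Fin.sum_univ_succ, fstIdx, sndIdx] <;> ring

variable {L' : Type} [Field L'] [NumberField L'] (F' : Frame L' C)

/-- **Equal coefficients give equal zeros.** -/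
theorem zeros_of_tuple {a a' : ℕ × ℕ × ℕ × ℕ} (h : F.tuple a = F'.tuple a') (c : Fin 3 → ℂ)
    (hc : psi (∑ i, c i • emb F.e (F.moved a i : L)) = 0) :
    psi (∑ i, c i • emb F'.e (F'.moved a' i : L')) = 0 := by
  set w : Fin 6 → ℂ := fun k =>
    (if fstIdx k = sndIdx k then 1 else 2) * (c (fstIdx k) * c (sndIdx k))
  have val : ∀ {M : Type} [Field M] [NumberField M] (G : Frame M C) b,
      det2 (G.g 0) ((2 : ℂ) • psi (∑ i, c i • emb G.e (G.moved b i : M))) =
        (∑ k, w k * ((G.tuple b k).1 : ℂ)) * G.δ₀ ∧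
      det2 (G.g 1 + (b.2.2.2 : ℂ) • G.g 0)
          ((2 : ℂ) • psi (∑ i, c i • emb G.e (G.moved b i : M))) =
        (∑ k, w k * ((G.tuple b k).2 : ℂ)) * G.δ₀ := by
    intro M _ _ G b
    rw [two_psi_sum]
    constructor
    · simp only [Fin.sum_univ_succ, Finset.univ_eq_empty, Finset.sum_empty, det2_add_right,
        det2_zero_right, det2_smul_right, G.coef_spec, tuple, w]
      ring
    · simp only [Fin.sum_univ_succ, Finset.univ_eq_empty, Finset.sum_empty, det2_add_right,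
        det2_add_left, det2_zero_right, det2_smul_right, det2_smul_left, G.coef_spec, tuple, w]
      push_cast
      ring
  have hz : ∀ {M : Type} [Field M] [NumberField M] (G : Frame M C) (b : ℕ × ℕ × ℕ × ℕ),
      det2 (G.g 0) (G.g 1 + (b.2.2.2 : ℂ) • G.g 0) ≠ 0 := by
    intro M _ _ G b
    rw [det2_add_right, det2_smul_right, show det2 (G.g 0) (G.g 0) = 0 by simp [det2, mul_comm],
      mul_zero, add_zero]
    exact G.g_indep
  obtain ⟨h1, h2⟩ := val F a
  rw [hc, smul_zero, det2_zero_right, eq_comm, mul_eq_zero, or_iff_left F.δ₀_ne, h] at h1 h2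
  obtain ⟨k1, k2⟩ := val F' a'
  rw [h1, zero_mul] at k1
  rw [h2, zero_mul] at k2
  exact (smul_eq_zero.1 (eq_zero_of_det2 (hz F' a') k1 k2)).resolve_left two_ne_zero

theorem centred_moved (a : ℕ × ℕ × ℕ × ℕ) :
    centred (F.moved a 0 : L) = centred (F.x 0 : L) ∧
    centred (F.moved a 1 : L) = centred (F.x 1 : L) + (a.1 : ℚ) • centred (F.x 0 : L) ∧
    centred (F.moved a 2 : L) = centred (F.x 2 : L) + (a.2.1 : ℚ) • centred (F.x 0 : L) +
      (a.2.2.1 : ℚ) • centred (F.x 1 : L) := by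
  have add : ∀ x y : L, centred (x + y) = centred x + centred y := fun x y => by
    simp [centred]; ring
  have mul : ∀ (n : ℕ) (x : L), centred ((n : L) * x) = (n : ℚ) • centred x := fun n x => by
    have ht : Algebra.trace ℚ L ((n : L) * x) = (n : ℚ) * Algebra.trace ℚ L x := by
      rw [← nsmul_eq_mul, map_nsmul, nsmul_eq_mul]
    simp [centred, ht, Rat.smul_def]
    ring
  simp [moved, add, mul, RingOfIntegers.coe_eq_algebraMap]

/-- **One change for each permutation.** -/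
theorem params_unique {a a' : ℕ × ℕ × ℕ × ℕ} (h : F.tuple a = F.tuple a')
    (π : Equiv.Perm (Fin 4)) {f : Fin 3 → Fin 4 → ℂ} {t t' : ℂ}
    (h1 : ∀ i j, F.e (π j) (centred (F.moved a i : L)) = t * f i j)
    (h2 : ∀ i j, F.e (π j) (centred (F.moved a' i : L)) = t' * f i j) : a = a' := by
  obtain ⟨m0, m1, m2⟩ := F.centred_moved a
  obtain ⟨n0, n1, n2⟩ := F.centred_moved a'
  have hli := linearIndependent_centred F.indep
  have hne : F.e (π 0) (centred (F.x 0 : L)) ≠ 0 := (map_ne_zero _).2 (hli.ne_zero 0)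
  have hf : f 0 0 ≠ 0 := fun h0 => hne (by rw [← m0, h1, h0, mul_zero])
  have htt : t = t' := mul_right_cancel₀ hf (by rw [← h1, ← h2, m0, n0])
  have heq : ∀ i, centred (F.moved a i : L) = centred (F.moved a' i : L) := fun i =>
    (F.e (π 0)).toRingHom.injective (show F.e (π 0) _ = F.e (π 0) _ by rw [h1, h2, htt])
  have c := fun g hg => Fintype.linearIndependent_iff.1 hli g hg
  have ha1 : (a.1 : ℚ) = a'.1 := by
    have := c ![(a.1 : ℚ) - a'.1, 0, 0] (by
      have e := heq 1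
      rw [m1, n1, add_right_inj] at e
      simp [Fin.sum_univ_three, sub_smul, e]) 0
    simpa [sub_eq_zero] using this
  have e := heq 2
  rw [m2, n2, add_assoc, add_assoc, add_right_inj] at e
  have hg : ∑ i : Fin 3, (![(a.2.1 : ℚ) - a'.2.1, a.2.2.1 - a'.2.2.1, 0] : Fin 3 → ℚ) i •
      centred (F.x i : L) = 0 := by
    simp [Fin.sum_univ_three, sub_smul]
    linear_combination e
  have ha2 : (a.2.1 : ℚ) = a'.2.1 := by simpa [sub_eq_zero] using c _ hg 0
  have ha3 : (a.2.2.1 : ℚ) = a'.2.2.1 := by simpa [sub_eq_zero] using c _ hg 1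
  have e1 : a.1 = a'.1 := by exact_mod_cast ha1
  have e2 : a.2.1 = a'.2.1 := by exact_mod_cast ha2
  have e3 : a.2.2.1 = a'.2.2.1 := by exact_mod_cast ha3
  have hmoved : F.moved a = F.moved a' := by simp only [moved, e1, e2, e3]
  obtain ⟨i, hi⟩ := F.exists_first_ne (F.moved_indep a)
  have hidx : ∀ i : Fin 3, ∃ k, fstIdx k = 0 ∧ sndIdx k = i := by decide
  obtain ⟨k, hk1, hk2⟩ := hidx i
  have hb := congrArg Prod.snd (congrFun h k)
  simp only [tuple, ← hmoved, hk1, hk2, add_right_inj] at hb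
  have e4 : a.2.2.2 = a'.2.2.2 := by exact_mod_cast mul_right_cancel₀ hi hb
  ext <;> assumption

end Frame

end FA.QuarticCount
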