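import Mathlib

/-!
# The pair of ternary forms of a quartic algebra

Four numbers `a` give the two differences `ψ a` of `a₀a₁ + a₂a₃`, `a₀a₂ + a₁a₃`, `a₀a₃ + a₁a₂`.
The determinant of two values of `ψ` is the determinant of `1, a, b, ab`, the hermitian product of
two values is symmetric in the indices, and `ψ a = 0` only if three of the numbers agree.
-/

set_option autoImplicit false
set_option linter.style.haveILetI false

noncomputable section

open Finset Matrix
open scoped ComplexConjugate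

namespace FA.QuarticCount

/-- The differences of the three products of complementary pairs. -/
def psi (a : Fin 4 → ℂ) : ℂ × ℂ :=
  ((a 0 - a 3) * (a 1 - a 2), (a 0 - a 2) * (a 1 - a 3))

/-- The symmetric bilinear map belonging to `psi`. -/
def beta (a b : Fin 4 → ℂ) : ℂ × ℂ :=
  ((a 0 - a 3) * (b 1 - b 2) + (b 0 - b 3) * (a 1 - a 2),
    (a 0 - a 2) * (b 1 - b 3) + (b 0 - b 2) * (a 1 - a 3))

/-- The determinant of two pairs. -/
def det2 (g h : ℂ × ℂ) : ℂ := g.1 * h.2 - g.2 * h.1

/-- The hermitian product of the three differences. -/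
def herm (g h : ℂ × ℂ) : ℂ :=
  conj g.1 * h.1 + conj g.2 * h.2 + conj (g.2 - g.1) * (h.2 - h.1)

theorem psi_add (a b : Fin 4 → ℂ) : psi (a + b) = psi a + psi b + beta a b := by
  ext <;> simp [psi, beta] <;> ring

theorem beta_comm (a b : Fin 4 → ℂ) : beta a b = beta b a := by
  ext <;> simp [beta] <;> ring

theorem beta_one_right (a : Fin 4 → ℂ) : beta a 1 = 0 := by
  ext <;> simp [beta]

theorem det2_zero_right (g : ℂ × ℂ) : det2 g 0 = 0 := by simp [det2]

theorem det2_add_right (g h k : ℂ × ℂ) : det2 g (h + k) = det2 g h + det2 g k := by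
  simp only [det2, Prod.fst_add, Prod.snd_add]; ring

theorem det2_neg_right (g h : ℂ × ℂ) : det2 g (-h) = -det2 g h := by
  simp only [det2, Prod.fst_neg, Prod.snd_neg]; ring

theorem det2_smul_right (g h : ℂ × ℂ) (c : ℂ) : det2 g (c • h) = c * det2 g h := by
  simp only [det2, Prod.smul_fst, Prod.smul_snd, smul_eq_mul]; ring

theorem det2_swap (g h : ℂ × ℂ) : det2 h g = -det2 g h := by
  simp only [det2]; ring

theorem det2_add_left (g h k : ℂ × ℂ) : det2 (g + h) k = det2 g k + det2 h k := by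
  simp only [det2, Prod.fst_add, Prod.snd_add]; ring

theorem det2_smul_left (g h : ℂ × ℂ) (c : ℂ) : det2 (c • g) h = c * det2 g h := by
  simp only [det2, Prod.smul_fst, Prod.smul_snd, smul_eq_mul]; ring

/-- Two independent pairs detect zero. -/
theorem eq_zero_of_det2 {g h z : ℂ × ℂ} (hgh : det2 g h ≠ 0) (h1 : det2 g z = 0)
    (h2 : det2 h z = 0) : z = 0 := by
  simp only [det2] at hgh h1 h2
  ext
  · exact (mul_eq_zero.1 (show (g.1 * h.2 - g.2 * h.1) * z.1 = 0 by
      linear_combination h.1 * h1 - g.1 * h2)).resolve_left hgh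
  · exact (mul_eq_zero.1 (show (g.1 * h.2 - g.2 * h.1) * z.2 = 0 by
      linear_combination h.2 * h1 - g.2 * h2)).resolve_left hgh

/-- **The identity**: the minors of the values of `psi` are determinants of `1, a, b, a b`. -/
theorem det2_psi (a b : Fin 4 → ℂ) :
    det2 (psi a) (psi b) = -(Matrix.of ![1, a, b, a * b]).det := by
  simp [det2, psi, Matrix.det_succ_row_zero, Fin.sum_univ_succ, Fin.succAbove]
  ring

/-- **The hermitian product of two values is symmetric in the indices.** -/
theorem herm_psi (a b : Fin 4 → ℂ) :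
    let p := fun i j => conj (a i - a j) * (b i - b j)
    8 * herm (psi a) (psi b) =
      (∑ i, ∑ j, p i j) ^ 2 - 4 * ∑ i, (∑ j, p i j) ^ 2 + 2 * ∑ i, ∑ j, p i j ^ 2 := by
  simp only [herm, psi, Fin.sum_univ_four, map_sub, map_mul]
  ring

/-- If complex conjugation permutes both, the hermitian product is real. -/
theorem herm_psi_real {a b : Fin 4 → ℂ} (π : Equiv.Perm (Fin 4))
    (ha : ∀ j, conj (a j) = a (π j)) (hb : ∀ j, conj (b j) = b (π j)) :
    conj (herm (psi a) (psi b)) = herm (psi a) (psi b) := by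
  let F : (Fin 4 → Fin 4 → ℂ) → ℂ := fun q =>
    (∑ i, ∑ j, q i j) ^ 2 - 4 * ∑ i, (∑ j, q i j) ^ 2 + 2 * ∑ i, ∑ j, q i j ^ 2
  set p : Fin 4 → Fin 4 → ℂ := fun i j => conj (a i - a j) * (b i - b j) with hp
  have hF : 8 * herm (psi a) (psi b) = F p := herm_psi a b
  have hconj : (fun i j => conj (p i j)) = fun i j => p (π i) (π j) := by
    funext i j
    simp only [hp, map_mul, map_sub, hb]
    rw [← ha, ← ha]
  have e1 : ∀ (q : Fin 4 → Fin 4 → ℂ) (i : Fin 4), ∑ j, q i (π j) = ∑ j, q i j :=
    fun q i => Equiv.sum_comp π (q i)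
  have hinv : F (fun i j => p (π i) (π j)) = F p := by
    simp only [F, e1 p, e1 fun i j => p i j ^ 2]
    rw [Equiv.sum_comp π fun i => ∑ j, p i j, Equiv.sum_comp π fun i => (∑ j, p i j) ^ 2,
      Equiv.sum_comp π fun i => ∑ j, p i j ^ 2]
  have h := congrArg conj hF
  rw [show conj (F p) = F (fun i j => conj (p i j)) by simp [F, map_ofNat], hconj, hinv, ← hF,
    map_mul, map_ofNat] at h
  exact mul_left_cancel₀ (by norm_num) h

/-- **Lagrange's identity** for the three differences. -/
theorem herm_lagrange (g h : ℂ × ℂ) :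
    herm g g * herm h h - herm g h * herm h g = 3 * (conj (det2 g h) * det2 g h) := by
  simp only [herm, det2, map_sub, map_mul]
  ring

/-- **No kernel**: a form with no zero coordinate sees every nonconstant quadruple. -/
theorem kernel_const {g : ℂ × ℂ} (h1 : g.1 ≠ 0) (h2 : g.2 ≠ 0) (h3 : g.1 ≠ g.2) {a : Fin 4 → ℂ}
    (ha : ∀ z, det2 g (beta a z) = 0) (j : Fin 4) : a j = a 3 := by
  have e0 := ha (Pi.single 0 1)
  have e1 := ha (Pi.single 1 1)
  have e2 := ha (Pi.single 2 1)
  simp [det2, beta] at e0 e1 e2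
  have hC : a 2 = a 3 := sub_eq_zero.1 ((mul_eq_zero.1 (show
      (2 * g.1 * g.2) * (a 2 - a 3) = 0 by
        linear_combination g.1 * e0 - g.2 * e1 + (g.1 - g.2) * e2)).resolve_left
      (mul_ne_zero (mul_ne_zero two_ne_zero h1) h2))
  have hA : a 0 = a 3 := sub_eq_zero.1 ((mul_eq_zero.1 (show
      (g.1 - g.2) * (a 0 - a 3) = 0 by linear_combination e1 + g.1 * hC)).resolve_left
      (sub_ne_zero.2 h3))
  have hB : a 1 = a 3 := sub_eq_zero.1 ((mul_eq_zero.1 (show
      (g.1 - g.2) * (a 1 - a 3) = 0 by linear_combination e0 - g.2 * hC)).resolve_left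
      (sub_ne_zero.2 h3))
  fin_cases j <;> simp_all

/-- **The common zeros**: three of the four numbers agree. -/
theorem psi_eq_zero {a : Fin 4 → ℂ} (h : psi a = 0) :
    ∃ (k : Fin 4) (t s : ℂ), ∀ i, a i = (if i = k then t else 0) + s := by
  simp only [psi, Prod.ext_iff, Prod.fst_zero, Prod.snd_zero, mul_eq_zero, sub_eq_zero] at h
  rcases h with ⟨h1 | h1, h2 | h2⟩
  · exact ⟨1, a 1 - a 3, a 3, fun i => by fin_cases i <;> simp <;> grind⟩
  · exact ⟨2, a 2 - a 3, a 3, fun i => by fin_cases i <;> simp <;> grind⟩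
  · exact ⟨3, a 3 - a 2, a 2, fun i => by fin_cases i <;> simp <;> grind⟩
  · exact ⟨0, a 0 - a 3, a 3, fun i => by fin_cases i <;> simp <;> grind⟩

theorem psi_single (k : Fin 4) : psi (Pi.single k 1) = 0 := by
  fin_cases k <;> simp [psi]

end FA.QuarticCount
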