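import Fermat.Agent.TwoTorsionBound.Shape

/-!
# A reduced triple of integers of a quartic field

The minimal vectors of the trace form, with one of them replaced by `1`, give three integers
that are independent modulo the rationals and whose sizes multiply to `O (√|d|)`.
-/

set_option autoImplicit false
set_option linter.style.haveILetI false

noncomputable section

open NumberField Module Finset Matrix FA.Perfect
open FA.Reduction (quad)
open FA.TwoTorsionBound (exists_int_basis traceGram quad_traceGram det_traceGram)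

namespace FA.QuarticCount

/-- A nonzero integer has a conjugate of absolute value at least one. -/
theorem exists_one_le_norm {L : Type} [Field L] [NumberField L] (e : Fin 4 ≃ (L →ₐ[ℚ] ℂ))
    {y : 𝓞 L} (hy : y ≠ 0) : ∃ j, 1 ≤ ‖e j (y : L)‖ := by
  by_contra! h
  have h1 := Algebra.norm_eq_prod_embeddings ℚ ℂ (y : L)
  rw [← Equiv.prod_comp e fun σ : L →ₐ[ℚ] ℂ => σ (y : L), Fin.prod_univ_four,
    ← Algebra.coe_norm_int, map_intCast] at h1
  have h2 : ‖((Algebra.norm ℤ y : ℤ) : ℂ)‖ < 1 := by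
    rw [h1, norm_mul, norm_mul, norm_mul]
    exact mul_lt_one_of_nonneg_of_lt_one_right
      (mul_le_one₀ (mul_le_one₀ (h 0).le (norm_nonneg _) (h 1).le) (norm_nonneg _) (h 2).le)
      (norm_nonneg _) (h 3)
  rw [Complex.norm_intCast] at h2
  have h3 : (1 : ℤ) ≤ |Algebra.norm ℤ y| :=
    Int.one_le_abs (Algebra.norm_ne_zero_iff.2 hy)
  exact absurd h2 (not_lt.2 (by exact_mod_cast h3))

/-- **The reduced triple.** -/
theorem exists_reduced_triple : ∃ C : ℝ, 1 ≤ C ∧
    ∀ (L : Type) [Field L] [NumberField L], finrank ℚ L = 4 → ∀ e : Fin 4 ≃ (L →ₐ[ℚ] ℂ),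
      ∃ (x : Fin 3 → 𝓞 L) (l : Fin 3 → ℝ),
        LinearIndependent ℚ (Fin.cons 1 (fun i => (x i : L)) : Fin 4 → L) ∧
        (∀ i j, ‖e j (x i : L)‖ ≤ l i) ∧ 1 ≤ l 0 ∧ Monotone l ∧
        (l 0 * l 1 * l 2) ^ 2 ≤ C * |(discr L : ℝ)| := by
  obtain ⟨γ, hγ⟩ : ∃ γ, γ = Real.sqrt ((4 / 3 : ℝ) ^ (3 * (3 + 1))) := ⟨_, rfl⟩
  refine ⟨γ, hγ ▸ Real.one_le_sqrt.2 (one_le_pow₀ (by norm_num)), fun L _ _ hn e => ?_⟩
  classical
  obtain ⟨σ⟩ := exists_int_basis (m := 3) hn
  obtain ⟨b, hb⟩ : ∃ b, b = (RingOfIntegers.basis L).reindex σ := ⟨_, rfl⟩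
  obtain ⟨bK, hbK⟩ : ∃ bK, bK = (integralBasis L).reindex σ := ⟨_, rfl⟩
  have hbb : ∀ i, bK i = (b i : L) := fun i => by
    rw [hb, hbK, Basis.reindex_apply, Basis.reindex_apply, integralBasis_apply]
  obtain ⟨el, hel⟩ : ∃ el : (Fin 4 → ℤ) → 𝓞 L, ∀ u, el u = ∑ i, u i • b i := ⟨_, fun _ => rfl⟩
  obtain ⟨P, hP⟩ : ∃ P, P = traceGram (⇑bK) := ⟨_, rfl⟩
  have hdisc : ((Algebra.discr ℚ ⇑bK : ℚ) : ℝ) = (discr L : ℝ) := by
    rw [hbK, Basis.coe_reindex, Algebra.discr_reindex, ← coe_discr, Rat.cast_intCast]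
  have hdet : P.det = |(discr L : ℝ)| := by rw [hP, det_traceGram hn, hdisc]
  have hD : 0 < |(discr L : ℝ)| := abs_pos.2 (Int.cast_ne_zero.2 (discr_ne_zero L))
  have hcoe : ∀ u, (el u : L) = ∑ i, u i • bK i := fun u => by
    rw [hel]
    simp only [RingOfIntegers.coe_eq_algebraMap, map_sum, map_zsmul, hbb]
  have hpsd : P.PosSemidef := by
    refine Matrix.PosSemidef.of_dotProduct_mulVec_nonneg ?_ fun x => ?_
    · refine Matrix.ext fun i l => ?_
      rw [hP, Matrix.conjTranspose_apply, star_trivial, traceGram, Matrix.of_apply,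
        Matrix.of_apply, Complex.re_sum, Complex.re_sum]
      refine Finset.sum_congr rfl fun φ _ => ?_
      rw [← Complex.conj_re, map_mul, Complex.conj_conj, mul_comm]
    · rw [star_trivial]
      show 0 ≤ quad P x
      rw [hP, quad_traceGram]
      exact Finset.sum_nonneg fun φ _ => sq_nonneg _
  have hpos : P.PosDef := hpsd.posDef_iff_det_ne_zero.2 (hdet ▸ hD.ne')
  have hrep : ∀ u i, bK.repr (el u : L) i = (u i : ℚ) := fun u i => by
    rw [hcoe, map_sum, Finsupp.coe_finsetSum, Finset.sum_apply]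
    simp only [map_zsmul, Basis.repr_self]
    simp [Finsupp.single_apply]
  have hval : ∀ u, ival P u = ∑ φ : L →+* ℂ, ‖φ (el u : L)‖ ^ 2 := fun u => by
    rw [FA.Perfect.ival, hP, quad_traceGram]
    refine Finset.sum_congr rfl fun φ _ => ?_
    rw [hcoe, map_sum φ]
    refine congrArg (fun z : ℂ => ‖z‖ ^ 2) (Finset.sum_congr rfl fun i _ => ?_)
    rw [zsmul_eq_mul, map_mul, map_intCast, Complex.ofReal_intCast]
  obtain ⟨v, hv⟩ := exists_minimaFamily hpos
  have hliQ : LinearIndependent ℚ (fun k => (el (v k) : L)) := by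
    rw [Fintype.linearIndependent_iff]
    intro g hg k
    have h1 : ∀ i, ∑ k, g k * (v k i : ℚ) = 0 := fun i => by
      have h := congrArg (fun z => bK.repr z i) hg
      simp only [map_sum, map_smul, map_zero, Finsupp.coe_finsetSum, Finset.sum_apply,
        Finsupp.coe_smul, Pi.smul_apply, smul_eq_mul, Finsupp.coe_zero, Pi.zero_apply] at h
      refine Eq.trans (Finset.sum_congr rfl fun k _ => ?_) h
      rw [hrep]
    have h2 : ∑ k, (g k : ℝ) • castVec (v k) = 0 := funext fun i => by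
      rw [Finset.sum_apply]
      simpa [castVec] using congrArg (fun q : ℚ => (q : ℝ)) (h1 i)
    exact_mod_cast Fintype.linearIndependent_iff.1 hv.1 (fun k => (g k : ℝ)) h2 k
  -- one minimal vector is replaced by `1`
  let BQ := basisOfLinearIndependentOfCardEqFinrank hliQ (by rw [Fintype.card_fin, hn])
  obtain ⟨j, hj⟩ : ∃ j, BQ.repr (1 : L) j ≠ 0 := by
    by_contra! h
    refine one_ne_zero (α := L) (BQ.repr.map_eq_zero_iff.1 (Finsupp.ext fun j => ?_))
    simpa using h j
  set x : Fin 3 → 𝓞 L := fun i => el (v (j.succAbove i)) with hx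
  have hli : LinearIndependent ℚ (Fin.cons 1 (fun i => (x i : L)) : Fin 4 → L) := by
    refine linearIndependent_finCons.2 ⟨hliQ.comp _ Fin.succAbove_right_injective, fun h => hj ?_⟩
    refine LinearMap.mem_ker.1 (Submodule.span_le.2 ?_ h :
      (1 : L) ∈ LinearMap.ker (BQ.coord j))
    rintro _ ⟨i, rfl⟩
    rw [SetLike.mem_coe, LinearMap.mem_ker]
    beta_reduce
    rw [show (x i : L) = BQ (j.succAbove i) by simp [BQ, hx], Basis.coord_apply, Basis.repr_self]
    simp
  have hone : ∀ k, 1 ≤ ival P (v k) := fun k => by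
    have h0 : el (v k) ≠ 0 := fun h => hliQ.ne_zero k (by rw [h]; exact map_zero _)
    obtain ⟨i, hi⟩ := exists_one_le_norm e h0
    rw [hval]
    refine (one_le_pow₀ (n := 2) hi).trans ?_
    exact Finset.single_le_sum (f := fun φ : L →+* ℂ => ‖φ (el (v k) : L)‖ ^ 2)
      (fun _ _ => sq_nonneg _) (Finset.mem_univ (e i).toRingHom)
  refine ⟨x, fun i => Real.sqrt (ival P (v (j.succAbove i))), hli, fun i k => ?_,
    Real.one_le_sqrt.2 (hone _), fun i k hik => Real.sqrt_le_sqrt
      (hv.2.1 ((Fin.strictMono_succAbove j).monotone hik)), ?_⟩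
  · rw [Real.le_sqrt (norm_nonneg _) (zero_le_one.trans (hone _)), hval]
    exact Finset.single_le_sum (f := fun φ : L →+* ℂ => ‖φ (x i : L)‖ ^ 2)
      (fun _ _ => sq_nonneg _) (Finset.mem_univ (e k).toRingHom)
  · have h2 := (prod_succMin_bounds hpos fun _ hQ => hermiteInv_le_hermite hQ).2
    rw [hdet, ← hγ] at h2
    simp only [succMin_eq hv] at h2
    rw [Fin.prod_univ_succAbove _ j] at h2
    have h0 : ∀ k, (0 : ℝ) ≤ ival P (v k) := fun k => zero_le_one.trans (hone k)
    calc _ = ∏ i : Fin 3, ival P (v (j.succAbove i)) := by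
          simp [Fin.prod_univ_three, mul_pow, Real.sq_sqrt (h0 _)]
      _ ≤ _ := (le_mul_of_one_le_left (Finset.prod_nonneg fun i _ => h0 _) (hone j)).trans h2

end FA.QuarticCount
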